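/-
S36, modular part, block S0 (sub-architect helper156).  (task S36-MOD-F1)

The function fields `FK L N ⊆ L((t))`, their generators `JK L N d = j(t^d)`, the degeneracy maps
`al = heckeAlphaBar`, `be = heckeBetaBar` on generators, extensionality, the standard integral
embedding.
-/
import Fermat.Agent.S36.Mod.GaussEmb.Defs
import Fermat.Agent.S18.ModDefs
import Fermat.Agent.S18.Descent.Union
import Fermat.Prelude.Def_ModularCurve_HeckeOperator
import Fermat.Prelude.Def_ModularCurve_X0ModL

set_option autoImplicit false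
set_option linter.unusedSectionVars false

noncomputable section

namespace Fermat.Agent.S36.Mod

open ModularCurve Fermat.Agent.S18 Fermat.Agent.S18.Vert Fermat.Agent.S18.Descent

variable (L : Type*) [Field L] [Algebra ℚ L]

/-- The series `j(t^d)` with coefficients in `L`. -/
def Js (d : ℕ) [NeZero d] : LaurentSeries L := coeffEmb L (qExpand ℚ d jq)

/-- `j(t^d)` as an element of the function field of level `N`, `d ∣ N`. -/
def JK (N d : ℕ) [NeZero d] (hd : d ∣ N) : FK L N :=
  ⟨Js L d, coeffEmb_mem_laurentBaseChange L (jqd_mem_full N hd)⟩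

@[simp] theorem coe_JK (N d : ℕ) [NeZero d] (hd : d ∣ N) :
    ((JK L N d hd : FK L N) : LaurentSeries L) = Js L d := rfl

theorem Js_congr {d d' : ℕ} [NeZero d] [NeZero d'] (h : d = d') : Js L d = Js L d' := by
  subst h; rfl

theorem JK_congr (N : ℕ) {d d' : ℕ} [NeZero d] [NeZero d'] (h : d = d') (hd : d ∣ N)
    (hd' : d' ∣ N) : JK L N d hd = JK L N d' hd' :=
  Subtype.ext (Js_congr L h)

variable {L}

set_option linter.unusedVariables false in
/-- Induction on the function field. -/
theorem FK_induction {N : ℕ} {P : FK L N → Prop}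
    (hJ : ∀ (d : ℕ) (_ : NeZero d) (hd : d ∣ N), P (JK L N d hd))
    (hc : ∀ c : L, P (algebraMap L (FK L N) c)) (hadd : ∀ f g, P f → P g → P (f + g))
    (hneg : ∀ f, P f → P (-f)) (hmul : ∀ f g, P f → P g → P (f * g))
    (hinv : ∀ f, P f → P f⁻¹) (f : FK L N) : P f := by
  -- the closure properties, for elements of `L((t))`
  have Qalg : ∀ c : L, ∃ f : FK L N, (f : LaurentSeries L) = algebraMap L (LaurentSeries L) c ∧
      P f := fun c => ⟨algebraMap L (FK L N) c, rfl, hc c⟩
  have Qadd : ∀ x y : LaurentSeries L, (∃ f : FK L N, (f : LaurentSeries L) = x ∧ P f) →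
      (∃ f : FK L N, (f : LaurentSeries L) = y ∧ P f) →
      ∃ f : FK L N, (f : LaurentSeries L) = x + y ∧ P f := by
    rintro _ _ ⟨f, rfl, hf⟩ ⟨g, rfl, hg⟩
    exact ⟨f + g, (FK L N).coe_add f g, hadd f g hf hg⟩
  have Qmul : ∀ x y : LaurentSeries L, (∃ f : FK L N, (f : LaurentSeries L) = x ∧ P f) →
      (∃ f : FK L N, (f : LaurentSeries L) = y ∧ P f) →
      ∃ f : FK L N, (f : LaurentSeries L) = x * y ∧ P f := by
    rintro _ _ ⟨f, rfl, hf⟩ ⟨g, rfl, hg⟩
    exact ⟨f * g, (FK L N).coe_mul f g, hmul f g hf hg⟩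
  have Qinv : ∀ x : LaurentSeries L, (∃ f : FK L N, (f : LaurentSeries L) = x ∧ P f) →
      ∃ f : FK L N, (f : LaurentSeries L) = x⁻¹ ∧ P f := by
    rintro _ ⟨f, rfl, hf⟩
    exact ⟨f⁻¹, (FK L N).coe_inv f, hinv f hf⟩
  -- the rational function field
  have hA : ∀ y ∈ modularFunctionFieldFull N,
      ∃ f : FK L N, (f : LaurentSeries L) = coeffEmb L y ∧ P f := by
    intro y hy
    induction hy using IntermediateField.adjoin_induction with
    | mem y hy =>
      obtain ⟨d, hne, hd, rfl⟩ := hy
      exact ⟨JK L N d hd, rfl, hJ d hne hd⟩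
    | algebraMap r =>
      have e : coeffEmb L (algebraMap ℚ (LaurentSeries ℚ) r)
          = algebraMap L (LaurentSeries L) (algebraMap ℚ L r) := coeffMap_algebraMap' _ r
      rw [e]
      exact Qalg _
    | add y z _ _ hy hz => rw [map_add]; exact Qadd _ _ hy hz
    | inv y _ hy => rw [map_inv₀]; exact Qinv _ hy
    | mul y z _ _ hy hz => rw [map_mul]; exact Qmul _ _ hy hz
  have hB : ∀ x ∈ FK L N, ∃ f : FK L N, (f : LaurentSeries L) = x ∧ P f := by
    intro x hx
    induction hx using IntermediateField.adjoin_induction with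
    | mem y hy =>
      obtain ⟨z, hz, rfl⟩ := hy
      exact hA z hz
    | algebraMap c => exact Qalg c
    | add y z _ _ hy hz => exact Qadd _ _ hy hz
    | inv y _ hy => exact Qinv _ hy
    | mul y z _ _ hy hz => exact Qmul _ _ hy hz
  obtain ⟨f', hf', h⟩ := hB f.1 f.2
  rwa [Subtype.ext hf'] at h

/-- Two ring homomorphisms out of `FK L N` which agree on the constants and on the generators
are equal. -/
theorem ringHom_ext_JK {N : ℕ} {E : Type*} [Field E] {f g : FK L N →+* E}
    (hc : ∀ c : L, f (algebraMap L (FK L N) c) = g (algebraMap L (FK L N) c))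
    (hJ : ∀ (d : ℕ) (_ : NeZero d) (hd : d ∣ N), f (JK L N d hd) = g (JK L N d hd)) : f = g := by
  ext x
  induction x using FK_induction with
  | hJ d hne hd => exact hJ d hne hd
  | hc c => exact hc c
  | hadd x y hx hy => rw [map_add, map_add, hx, hy]
  | hneg x hx => rw [map_neg, map_neg, hx]
  | hmul x y hx hy => rw [map_mul, map_mul, hx, hy]
  | hinv x hx => rw [map_inv₀, map_inv₀, hx]

theorem algHom_ext_JK {N : ℕ} {E : Type*} [Field E] [Algebra L E] {f g : FK L N →ₐ[L] E}
    (hJ : ∀ (d : ℕ) (_ : NeZero d) (hd : d ∣ N), f (JK L N d hd) = g (JK L N d hd)) : f = g := by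
  have h : (f : FK L N →+* E) = (g : FK L N →+* E) :=
    ringHom_ext_JK (fun c => (f.commutes c).trans (g.commutes c).symm) hJ
  exact AlgHom.ext fun x => congrArg (fun φ : FK L N →+* E => φ x) h

theorem qExpand_Js (n d : ℕ) [NeZero n] [NeZero d] : qExpand L n (Js L d) = Js L (n * d) := by
  rw [Js, Js, ← qExpand_qExpand d n jq, coeffEmb, coeffMap_qExpand (algebraMap ℚ L) n]

theorem coeffMap_Js {L' : Type*} [Field L'] [Algebra ℚ L'] (ι : L →+* L') (d : ℕ) [NeZero d] :
    coeffMap ι (Js L d) = Js L' d :=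
  coeffMap_coeffEmb' ι _

section Degeneracy

variable (N q : ℕ) [NeZero N] [NeZero q]

theorem al_JK (d : ℕ) [NeZero d] (hd : d ∣ N) :
    heckeAlphaBar L N q (JK L N d hd) = JK L (N * q) d (hd.mul_right q) := by
  apply Subtype.ext
  rw [coe_heckeAlphaBar, coe_JK, coe_JK]

theorem be_JK (d : ℕ) [NeZero d] (hd : d ∣ N) (hd' : q * d ∣ N * q) :
    heckeBetaBar L N q (JK L N d hd) = JK L (N * q) (q * d) hd' := by
  apply Subtype.ext
  rw [coe_heckeBetaBar, coe_JK, coe_JK, qExpand_Js]

/-- `al ∘ be = be ∘ al`. -/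
theorem al_be (f : FK L N) :
    heckeAlphaBar L (N * q) q (heckeBetaBar L N q f) =
      heckeBetaBar L (N * q) q (heckeAlphaBar L N q f) := by
  apply Subtype.ext
  rw [coe_heckeAlphaBar, coe_heckeBetaBar, coe_heckeBetaBar, coe_heckeAlphaBar]

end Degeneracy

/-! ### The standard integral embedding -/

/-- The coefficients of `j(t^d)` are integers. -/
theorem exists_inc_eq_Js (A : ValuationSubring L) (d : ℕ) [NeZero d] :
    ∃ P : LaurentSeries A, inc A P = Js L d ∧
      red A P = coeffMap (Int.castRingHom (IsLocalRing.ResidueField A))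
        (qExpand ℤ d (HahnSeries.single (-1 : ℤ) 1 * HahnSeries.ofPowerSeries ℤ ℤ jNum)) := by
  set X : LaurentSeries ℤ :=
    HahnSeries.single (-1 : ℤ) 1 * HahnSeries.ofPowerSeries ℤ ℤ jNum with hX
  have hjq : coeffMap (Int.castRingHom ℚ) X = jq := by
    rw [hX, map_mul, coeffMap_single, map_one, coeffMap_ofPowerSeries]
    rfl
  refine ⟨coeffMap (Int.castRingHom A) (qExpand ℤ d X), ?_, ?_⟩
  · rw [inc, coeffMap_coeffMap, Js, ← hjq, ← coeffMap_qExpand, coeffEmb, coeffMap_coeffMap]
    exact coeffMap_congr (RingHom.ext_int _ _) _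
  · rw [red, coeffMap_coeffMap]
    exact coeffMap_congr (RingHom.ext_int _ _) _

theorem FK_le_quotField (A : ValuationSubring L) (N : ℕ) : FK L N ≤ quotField A := by
  intro x hx
  have key : ∀ f : FK L N, (f : LaurentSeries L) ∈ quotField A := by
    intro f
    induction f using FK_induction with
    | hJ d hne hd =>
      obtain ⟨P, hP, -⟩ := exists_inc_eq_Js A d
      rw [coe_JK, ← hP]
      exact inc_mem_quotField A P
    | hc c => exact (quotField A).algebraMap_mem c
    | hadd x y hx hy => exact add_mem hx hy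
    | hneg x hx => exact neg_mem hx
    | hmul x y hx hy => exact mul_mem hx hy
    | hinv x hx => exact inv_mem hx
  exact key ⟨x, hx⟩

/-- The inclusion `FK L N ⊆ L((t))` as an integral embedding. -/
def stdEmb (A : ValuationSubring L) [IsDiscreteValuationRing A] (N : ℕ) : IntEmb A (FK L N) where
  toHom := (FK L N).val.toRingHom
  mem f := FK_le_quotField A N f.2

@[simp] theorem stdEmb_toHom_apply (A : ValuationSubring L) [IsDiscreteValuationRing A] (N : ℕ)
    (f : FK L N) : (stdEmb A N).toHom f = (f : LaurentSeries L) := rfl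

end Fermat.Agent.S36.Mod

end
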