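/-
S36, modular part, block S0 (sub-architect helper156).  ANALYTIC INPUT (tasks S36-MOD-E1, E2).

Expansions of the function field of `X₀(N)` over `ℚ̄` at other cusps, from `S24/B`
(`Psi N : FN N → LN N`, the action of `SL(2,ℤ)` on `LN N`, `texpL N : LN N → ℚ̄((t))`,
`hasTExp_tri`, `jfun_levelMat`).

* Atkin-Lehner: `N = N0 * Q`, `(N0, Q) = 1`.  Take `γ = !![a, b; N0, Q]`, `a Q - b N0 = 1`.
  For `d ∣ N0`, `e e' = Q`:  `j (d e γ τ) = j (d τ / e)`, whose `t`-expansion (`t = exp(2πiτ/N)`) is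
  `j (t ^ (N0 * (d * e')))`.  So `f ↦ texpL N (γ^{±1} • Psi N f)` has image in
  `qExpand N0 (FN N)` and sends `j(q^{de})` to `qExpand N0 (j(q^{de'}))`.
* the middle cusp: `N = N0 q q`, `γ = !![a, b; c, d]` with `N0 q ∣ c`, `¬ q q ∣ c`:
  `j (δ γ τ) = j (δ τ)` for `δ ∣ N0 q` and `j (δ q q γ τ) = j (δ τ + δ b₁ / q)`,
  `b₁ = d (c / q)⁻¹ mod q`, for `δ ∣ N0`.
-/
import Fermat.Agent.S36.Mod.Fields
import Fermat.Agent.S24.B.Field
import Fermat.Agent.S36.Mod.EmbBar.AL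
import Fermat.Agent.S36.Mod.EmbBar.MidAll
import Fermat.Agent.S36.Mod.EmbBar.Mid

set_option autoImplicit false

noncomputable section

namespace Fermat.Agent.S36.Mod

open ModularCurve Fermat.Agent.S24

/-- **Atkin-Lehner involution** `w_Q` on the function field of `X₀(N0 Q)` over `ℚ̄`. -/
theorem exists_atkinLehner_bar (N N0 Q : ℕ) [NeZero N] (hN : N = N0 * Q) (hcop : N0.Coprime Q) :
    ∃ w : FN N →ₐ[Kbar] FN N,
      ∀ (d e e' : ℕ) [NeZero d] [NeZero e] [NeZero e'], d ∣ N0 → e * e' = Q →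
        ∀ (h1 : d * e ∣ N) (h2 : d * e' ∣ N), w (JF N (d * e) h1) = JF N (d * e') h2 :=
  exists_atkinLehner_bar' N N0 Q hN hcop

/-- **The expansion at the middle cusp**, for one primitive `q`-th root of unity. -/
theorem exists_mid_bar_aux (N0 q : ℕ) [NeZero N0] [NeZero q] (hq : q.Prime) (hqN : ¬ q ∣ N0) :
    ∃ ζ : Kbarˣ, IsPrimitiveRoot ζ q ∧ ∃ σ : FN (N0 * q * q) →ₐ[Kbar] LaurentSeries Kbar,
      (∀ (d : ℕ) [NeZero d], d ∣ N0 * q → ∀ h1 : d ∣ N0 * q * q,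
        σ (JF (N0 * q * q) d h1) = Jser d) ∧
      (∀ (d : ℕ) [NeZero d], d ∣ N0 → ∀ h1 : d * q * q ∣ N0 * q * q,
        σ (JF (N0 * q * q) (d * q * q) h1) = B.twist ζ (Jser d)) :=
  exists_mid_bar_aux' N0 q hq hqN

/-- **The expansion at the middle cusp**, for every primitive `q`-th root of unity
(conjugate `exists_mid_bar_aux` by an element of `Gal(ℚ̄/ℚ)` acting on the coefficients). -/
theorem exists_mid_bar (N0 q : ℕ) [NeZero N0] [NeZero q] (hq : q.Prime) (hqN : ¬ q ∣ N0)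
    (ζ : Kbarˣ) (hζ : IsPrimitiveRoot ζ q) :
    ∃ σ : FN (N0 * q * q) →ₐ[Kbar] LaurentSeries Kbar,
      (∀ (d : ℕ) [NeZero d], d ∣ N0 * q → ∀ h1 : d ∣ N0 * q * q,
        σ (JF (N0 * q * q) d h1) = Jser d) ∧
      (∀ (d : ℕ) [NeZero d], d ∣ N0 → ∀ h1 : d * q * q ∣ N0 * q * q,
        σ (JF (N0 * q * q) (d * q * q) h1) = B.twist ζ (Jser d)) :=
  exists_mid_bar' N0 q hq hqN (exists_mid_bar_aux N0 q hq hqN) ζ hζ

end Fermat.Agent.S36.Mod

end
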