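/-
S36, modular part, block S0 (sub-architect helper156).  (tasks S36-MOD-E3, E4)

Descent of the embeddings of `EmbBar.lean` from `ℚ̄` to an arbitrary subfield `K` of `ℚ̄`.
`K` is an ABSTRACT field with an embedding `[Algebra K ℚ̄]` (ruling of helper36: the interface
`S36.ModelStatement` is stated for such `K`).
-/
import Fermat.Agent.S36.Mod.EmbBar
import Fermat.Agent.S18.Descent.HorizontalBC
import Fermat.Agent.S36.Mod.EmbK.Descent

set_option autoImplicit false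
set_option linter.unusedSectionVars false

noncomputable section

namespace Fermat.Agent.S36.Mod

open ModularCurve Fermat.Agent.S24 Fermat.Agent.S18 Fermat.Agent.S18.Descent

variable (K : Type*) [Field K] [Algebra ℚ K] [Algebra K Kbar]

/-- **General descent lemma**: a `ℚ̄`-embedding of `FN N` in `ℚ̄((t))` which maps the generators to
series with coefficients in `K` restricts to a `K`-embedding of `FK K N` in `K((t))`. -/
theorem exists_descent (N : ℕ) [NeZero N] (Φ : FN N →ₐ[Kbar] LaurentSeries Kbar)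
    (h : ∀ (d : ℕ) [NeZero d] (hd : d ∣ N),
      ∃ s : LaurentSeries K, coeffMap (algebraMap K Kbar) s = Φ (JF N d hd)) :
    ∃ Φ' : FK K N →ₐ[K] LaurentSeries K, ∀ f : FK K N,
      coeffMap (algebraMap K Kbar) (Φ' f) = Φ (baseChangeMap (modularFunctionFieldFull N) (algebraMap K Kbar) f) :=
  exists_descent' K N Φ h

/-! ### Auxiliary lemmas for E4 -/

theorem EmbK.toBar_JK (N d : ℕ) [NeZero d] (hd : d ∣ N) :
    baseChangeMap (modularFunctionFieldFull N) (algebraMap K Kbar) (JK K N d hd) = JF N d hd := by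
  apply Subtype.ext
  exact coeffMap_coeffEmb' _ _

theorem EmbK.coeffMap_Js_bar (d : ℕ) [NeZero d] :
    coeffMap (algebraMap K Kbar) (Js K d) = Jser d :=
  coeffMap_coeffEmb' _ _

theorem EmbK.coeffMap_inj {x y : LaurentSeries K}
    (h : coeffMap (algebraMap K Kbar) x = coeffMap (algebraMap K Kbar) y) : x = y :=
  coeffMap_injective _ (algebraMap K Kbar).injective h

theorem EmbK.coeffMap_twist (ζ : Kˣ) (s : LaurentSeries K) :
    coeffMap (algebraMap K Kbar) (B.twist ζ s) =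
      B.twist (Units.map (algebraMap K Kbar : K →* Kbar) ζ) (coeffMap (algebraMap K Kbar) s) := by
  ext n
  show algebraMap K Kbar (((ζ ^ n : Kˣ) : K) * s.coeff n) =
    (((Units.map (algebraMap K Kbar : K →* Kbar) ζ) ^ n : Kbarˣ) : Kbar) *
      algebraMap K Kbar (s.coeff n)
  rw [map_mul, ← map_zpow]
  rfl

theorem EmbK.exists_factor {N0 Q d : ℕ} (hQ : Q ≠ 0) (hd : d ∣ N0 * Q) :
    ∃ d0 e e' : ℕ, d = d0 * e ∧ d0 ∣ N0 ∧ e * e' = Q ∧ e ≠ 0 ∧ e' ≠ 0 := by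
  obtain ⟨a, b, ha, ⟨c, hc⟩, hab⟩ := (Nat.dvd_mul).1 hd
  refine ⟨a, b, c, hab.symm, ha, hc.symm, ?_, ?_⟩
  · rintro rfl
    exact hQ (by rw [hc, zero_mul])
  · rintro rfl
    exact hQ (by rw [hc, mul_zero])

/-- Atkin-Lehner over `K`. -/
theorem exists_atkinLehner (N N0 Q : ℕ) [NeZero N] (hN : N = N0 * Q) (hcop : N0.Coprime Q) :
    ∃ w : FK K N →ₐ[K] FK K N,
      ∀ (d e e' : ℕ) [NeZero d] [NeZero e] [NeZero e'], d ∣ N0 → e * e' = Q →
        ∀ (h1 : d * e ∣ N) (h2 : d * e' ∣ N), w (JK K N (d * e) h1) = JK K N (d * e') h2 := by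
  obtain ⟨wb, hwb⟩ := exists_atkinLehner_bar N N0 Q hN hcop
  have hN0 : N ≠ 0 := NeZero.ne N
  have hQ0 : Q ≠ 0 := by
    rintro rfl
    exact hN0 (by rw [hN, mul_zero])
  have hN00 : N0 ≠ 0 := by
    rintro rfl
    exact hN0 (by rw [hN, zero_mul])
  let Φ : FN N →ₐ[Kbar] LaurentSeries Kbar := (modularFunctionFieldBar N).val.comp wb
  have hΦ : ∀ (d e e' : ℕ) [NeZero d] [NeZero e] [NeZero e'], d ∣ N0 → e * e' = Q →
      ∀ (h1 : d * e ∣ N), Φ (JF N (d * e) h1) = Jser (d * e') := by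
    intro d e e' _ _ _ hd he h1
    have h2 : d * e' ∣ N := by
      rw [hN]
      exact Nat.mul_dvd_mul hd ⟨e, by rw [← he, mul_comm]⟩
    show ((wb (JF N (d * e) h1) : FN N) : LaurentSeries Kbar) = _
    rw [hwb d e e' hd he h1 h2]
    rfl
  obtain ⟨Φ', hΦ'⟩ := exists_descent K N Φ (by
    intro d _ hd
    obtain ⟨d0, e, e', rfl, hd0, he, he0, he'0⟩ := EmbK.exists_factor hQ0 (hN ▸ hd)
    have : NeZero d0 := ⟨fun h => hN00 (by rw [h] at hd0; exact Nat.eq_zero_of_zero_dvd hd0)⟩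
    have : NeZero e := ⟨he0⟩
    have : NeZero e' := ⟨he'0⟩
    exact ⟨Js K (d0 * e'), by rw [EmbK.coeffMap_Js_bar, hΦ d0 e e' hd0 he hd]⟩)
  have hJ : ∀ (d e e' : ℕ) [NeZero d] [NeZero e] [NeZero e'], d ∣ N0 → e * e' = Q →
      ∀ (h1 : d * e ∣ N), Φ' (JK K N (d * e) h1) = Js K (d * e') := by
    intro d e e' _ _ _ hd he h1
    apply EmbK.coeffMap_inj K
    rw [hΦ', EmbK.toBar_JK, hΦ d e e' hd he h1, EmbK.coeffMap_Js_bar]
  have hmem : ∀ f : FK K N, Φ' f ∈ FK K N := by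
    intro f
    induction f using FK_induction with
    | hJ d _ hd =>
      obtain ⟨d0, e, e', rfl, hd0, he, he0, he'0⟩ := EmbK.exists_factor hQ0 (hN ▸ hd)
      have : NeZero d0 := ⟨fun h => hN00 (by rw [h] at hd0; exact Nat.eq_zero_of_zero_dvd hd0)⟩
      have : NeZero e := ⟨he0⟩
      have : NeZero e' := ⟨he'0⟩
      have h2 : d0 * e' ∣ N := by
        rw [hN]
        exact Nat.mul_dvd_mul hd0 ⟨e, by rw [← he, mul_comm]⟩
      rw [hJ d0 e e' hd0 he hd]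
      exact (JK K N (d0 * e') h2).2
    | hc c =>
      rw [AlgHom.commutes]
      exact (FK K N).algebraMap_mem c
    | hadd f g hf hg =>
      have h : Φ' (f + g) = Φ' f + Φ' g := Φ'.toRingHom.map_add f g
      rw [h]; exact add_mem hf hg
    | hneg f hf =>
      have h : Φ' (-f) = -Φ' f := Φ'.toRingHom.map_neg f
      rw [h]; exact neg_mem hf
    | hmul f g hf hg =>
      have h : Φ' (f * g) = Φ' f * Φ' g := Φ'.toRingHom.map_mul f g
      rw [h]; exact mul_mem hf hg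
    | hinv f hf =>
      have h : Φ' f⁻¹ = (Φ' f)⁻¹ := map_inv₀ Φ'.toRingHom f
      rw [h]; exact inv_mem hf
  refine ⟨Φ'.codRestrict (FK K N).toSubalgebra hmem, ?_⟩
  intro d e e' _ _ _ hd he h1 h2
  apply Subtype.ext
  exact hJ d e e' hd he h1

/-- The expansion at the middle cusp over a field `K` containing the `q`-th roots of unity. -/
theorem exists_mid (N0 q : ℕ) [NeZero N0] [NeZero q] (hq : q.Prime) (hqN : ¬ q ∣ N0)
    (ζ : Kˣ) (hζ : IsPrimitiveRoot ζ q) :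
    ∃ σ : FK K (N0 * q * q) →ₐ[K] LaurentSeries K,
      (∀ (d : ℕ) [NeZero d], d ∣ N0 * q → ∀ h1 : d ∣ N0 * q * q,
        σ (JK K (N0 * q * q) d h1) = Js K d) ∧
      (∀ (d : ℕ) [NeZero d], d ∣ N0 → ∀ h1 : d * q * q ∣ N0 * q * q,
        σ (JK K (N0 * q * q) (d * q * q) h1) = B.twist ζ (Js K d)) := by
  have hζb : IsPrimitiveRoot (Units.map (algebraMap K Kbar : K →* Kbar) ζ) q :=
    hζ.map_of_injective (Units.map_injective (algebraMap K Kbar).injective)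
  obtain ⟨σb, hσ1, hσ2⟩ := exists_mid_bar N0 q hq hqN _ hζb
  have hN00 : N0 ≠ 0 := NeZero.ne N0
  obtain ⟨σ, hσ⟩ := exists_descent K (N0 * q * q) σb (by
    intro d _ hd
    have hd' : d ∣ N0 * q ^ 2 := by rwa [sq, ← mul_assoc]
    obtain ⟨a, b, ha, hb, rfl⟩ := (Nat.dvd_mul).1 hd'
    obtain ⟨i, hi, rfl⟩ := (Nat.dvd_prime_pow hq).1 hb
    have : NeZero a := ⟨fun h => hN00 (by rw [h] at ha; exact Nat.eq_zero_of_zero_dvd ha)⟩
    rcases Nat.lt_or_ge i 2 with hi2 | hi2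
    · have h1 : a * q ^ i ∣ N0 * q :=
        Nat.mul_dvd_mul ha (by
          have := pow_dvd_pow q (Nat.lt_succ_iff.mp hi2)
          rwa [pow_one] at this)
      exact ⟨Js K (a * q ^ i), by rw [EmbK.coeffMap_Js_bar, hσ1 _ h1 hd]⟩
    · obtain rfl : i = 2 := le_antisymm hi hi2
      have h2 : a * q * q ∣ N0 * q * q := Nat.mul_dvd_mul_right (Nat.mul_dvd_mul_right ha q) q
      have h3 : JF (N0 * q * q) (a * q ^ 2) hd = JF (N0 * q * q) (a * q * q) h2 := by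
        apply Subtype.ext
        show Jser (a * q ^ 2) = Jser (a * q * q)
        congr 1
        ring
      exact ⟨B.twist ζ (Js K a), by
        rw [EmbK.coeffMap_twist, EmbK.coeffMap_Js_bar, h3, hσ2 a ha h2]⟩)
  refine ⟨σ, ?_, ?_⟩
  · intro d _ hd h1
    apply EmbK.coeffMap_inj K
    rw [hσ, EmbK.toBar_JK, hσ1 d hd h1, EmbK.coeffMap_Js_bar]
  · intro d _ hd h1
    apply EmbK.coeffMap_inj K
    rw [hσ, EmbK.toBar_JK, hσ2 d hd h1, EmbK.coeffMap_twist, EmbK.coeffMap_Js_bar]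

/-! ### Definitions -/

/-- The Atkin-Lehner endomorphism `w_Q` of `FK K N`, `N = N0 * Q`. -/
def wAL (N N0 Q : ℕ) [NeZero N] (hN : N = N0 * Q) (hcop : N0.Coprime Q) : FK K N →ₐ[K] FK K N :=
  (exists_atkinLehner K N N0 Q hN hcop).choose

theorem wAL_JK (N N0 Q : ℕ) [NeZero N] (hN : N = N0 * Q) (hcop : N0.Coprime Q)
    (d e e' : ℕ) [NeZero d] [NeZero e] [NeZero e'] (hd : d ∣ N0) (he : e * e' = Q)
    (h1 : d * e ∣ N) (h2 : d * e' ∣ N) :
    wAL K N N0 Q hN hcop (JK K N (d * e) h1) = JK K N (d * e') h2 :=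
  (exists_atkinLehner K N N0 Q hN hcop).choose_spec d e e' hd he h1 h2

/-- `w_Q` is an involution. -/
theorem wAL_wAL (N N0 Q : ℕ) [NeZero N] (hN : N = N0 * Q) (hcop : N0.Coprime Q) (f : FK K N) :
    wAL K N N0 Q hN hcop (wAL K N N0 Q hN hcop f) = f := by
  have hN0 : N ≠ 0 := NeZero.ne N
  have hQ0 : Q ≠ 0 := by
    rintro rfl
    exact hN0 (by rw [hN, mul_zero])
  have hN00 : N0 ≠ 0 := by
    rintro rfl
    exact hN0 (by rw [hN, zero_mul])
  have key : (wAL K N N0 Q hN hcop).comp (wAL K N N0 Q hN hcop) = AlgHom.id K (FK K N) := by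
    apply algHom_ext_JK
    intro d _ hd
    obtain ⟨d0, e, e', rfl, hd0, he, he0, he'0⟩ := EmbK.exists_factor hQ0 (hN ▸ hd)
    have : NeZero d0 := ⟨fun h => hN00 (by rw [h] at hd0; exact Nat.eq_zero_of_zero_dvd hd0)⟩
    have : NeZero e := ⟨he0⟩
    have : NeZero e' := ⟨he'0⟩
    have h2 : d0 * e' ∣ N := by
      rw [hN]
      exact Nat.mul_dvd_mul hd0 ⟨e, by rw [← he, mul_comm]⟩
    rw [AlgHom.comp_apply, wAL_JK K N N0 Q hN hcop d0 e e' hd0 he hd h2,
      wAL_JK K N N0 Q hN hcop d0 e' e hd0 (by rw [mul_comm, he]) h2 hd]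
    rfl
  exact congrArg (fun φ : FK K N →ₐ[K] FK K N => φ f) key

/-- The expansion at the middle cusp. -/
def mid (N0 q : ℕ) [NeZero N0] [NeZero q] (hq : q.Prime) (hqN : ¬ q ∣ N0)
    (ζ : Kˣ) (hζ : IsPrimitiveRoot ζ q) : FK K (N0 * q * q) →ₐ[K] LaurentSeries K :=
  (exists_mid K N0 q hq hqN ζ hζ).choose

theorem mid_JK (N0 q : ℕ) [NeZero N0] [NeZero q] (hq : q.Prime) (hqN : ¬ q ∣ N0)
    (ζ : Kˣ) (hζ : IsPrimitiveRoot ζ q) (d : ℕ) [NeZero d] (hd : d ∣ N0 * q)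
    (h1 : d ∣ N0 * q * q) : mid K N0 q hq hqN ζ hζ (JK K (N0 * q * q) d h1) = Js K d :=
  (exists_mid K N0 q hq hqN ζ hζ).choose_spec.1 d hd h1

theorem mid_JK' (N0 q : ℕ) [NeZero N0] [NeZero q] (hq : q.Prime) (hqN : ¬ q ∣ N0)
    (ζ : Kˣ) (hζ : IsPrimitiveRoot ζ q) (d : ℕ) [NeZero d] (hd : d ∣ N0)
    (h1 : d * q * q ∣ N0 * q * q) :
    mid K N0 q hq hqN ζ hζ (JK K (N0 * q * q) (d * q * q) h1) = B.twist ζ (Js K d) :=
  (exists_mid K N0 q hq hqN ζ hζ).choose_spec.2 d hd h1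

end Fermat.Agent.S36.Mod

end
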