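/-
S36, modular part (sub-architect helper156).  ABSTRACT FILE, Mathlib + Prelude `qExpand`, `coeffMap`
(task S36-MOD-TH).

The derivation `θ = t d/dt` of `R((t))`.
-/
import Mathlib
import Fermat.Prelude.Def_ModularCurve_LaurentCoeff
import Fermat.Prelude.Def_ModularCurve_X0

set_option autoImplicit false

noncomputable section

namespace Fermat.Agent.S36.Mod

open ModularCurve

variable {R : Type*} [CommRing R]

/-- `θ (∑ a_n t^n) = ∑ n a_n t^n`. -/
def theta (f : LaurentSeries R) : LaurentSeries R where
  coeff n := (n : R) * f.coeff n
  isPWO_support' := f.isPWO_support.mono (by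
    intro n hn
    simp only [Function.mem_support, ne_eq] at hn
    simp only [HahnSeries.mem_support, ne_eq]
    intro h
    exact hn (by rw [h, mul_zero]))

@[simp] theorem theta_coeff (f : LaurentSeries R) (n : ℤ) :
    (theta f).coeff n = (n : R) * f.coeff n := rfl

theorem theta_zero : theta (0 : LaurentSeries R) = 0 := by
  ext n; simp

theorem theta_add (f g : LaurentSeries R) : theta (f + g) = theta f + theta g := by
  ext n; simp [mul_add]

theorem theta_neg (f : LaurentSeries R) : theta (-f) = -theta f := by
  ext n; simp

theorem theta_sub (f g : LaurentSeries R) : theta (f - g) = theta f - theta g := by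
  ext n; simp [mul_sub]

theorem theta_single (n : ℤ) (c : R) :
    theta (HahnSeries.single n c : LaurentSeries R) = HahnSeries.single n ((n : R) * c) := by
  ext m
  rw [theta_coeff, HahnSeries.coeff_single, HahnSeries.coeff_single]
  split_ifs with h
  · rw [h]
  · rw [mul_zero]

theorem theta_C (c : R) : theta (HahnSeries.C c : LaurentSeries R) = 0 := by
  show theta (HahnSeries.single 0 c : LaurentSeries R) = 0
  rw [theta_single]
  simp

theorem theta_one : theta (1 : LaurentSeries R) = 0 := by
  have h : (1 : LaurentSeries R) = HahnSeries.C 1 := (map_one _).symm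
  rw [h, theta_C]

theorem theta_support_subset (f : LaurentSeries R) : (theta f).support ⊆ f.support := by
  intro n hn
  rw [HahnSeries.mem_support] at hn ⊢
  intro h
  exact hn (by rw [theta_coeff, h, mul_zero])

/-- Leibniz rule. -/
theorem theta_mul (f g : LaurentSeries R) : theta (f * g) = theta f * g + f * theta g := by
  ext n
  rw [theta_coeff, HahnSeries.coeff_add, HahnSeries.coeff_mul,
    HahnSeries.coeff_mul_left' f.isPWO_support (theta_support_subset f),
    HahnSeries.coeff_mul_right' g.isPWO_support (theta_support_subset g),
    Finset.mul_sum, ← Finset.sum_add_distrib]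
  refine Finset.sum_congr rfl ?_
  intro ij hij
  rw [Finset.mem_antidiagonal] at hij
  rw [theta_coeff, theta_coeff, ← hij.2.2]
  push_cast
  ring

theorem theta_C_mul (c : R) (f : LaurentSeries R) :
    theta (HahnSeries.C c * f) = HahnSeries.C c * theta f := by
  rw [theta_mul, theta_C, zero_mul, zero_add]

theorem theta_pow (f : LaurentSeries R) (n : ℕ) :
    theta (f ^ n) = (n : LaurentSeries R) * f ^ (n - 1) * theta f := by
  induction n with
  | zero => simp [theta_one]
  | succ m ih =>
    rw [pow_succ, theta_mul, ih]
    cases m with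
    | zero => simp
    | succ k =>
      simp only [Nat.add_sub_cancel]
      push_cast
      ring

theorem theta_sum {ι : Type*} (s : Finset ι) (f : ι → LaurentSeries R) :
    theta (∑ i ∈ s, f i) = ∑ i ∈ s, theta (f i) := by
  classical
  induction s using Finset.induction_on with
  | empty => simp [theta_zero]
  | insert a s ha ih => rw [Finset.sum_insert ha, Finset.sum_insert ha, theta_add, ih]

theorem theta_coeffMap {R' : Type*} [CommRing R'] (φ : R →+* R') (f : LaurentSeries R) :
    theta (coeffMap φ f) = coeffMap φ (theta f) := by
  ext n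
  rw [theta_coeff, coeffMap_coeff, coeffMap_coeff, theta_coeff, map_mul, map_intCast]

theorem theta_natCast_mul_coeff (n : ℕ) (f : LaurentSeries R) (k : ℤ) :
    ((n : LaurentSeries R) * f).coeff k = (n : R) * f.coeff k := by
  have h : (n : LaurentSeries R) = HahnSeries.C (n : R) := (map_natCast _ n).symm
  rw [h, HahnSeries.C_mul_eq_smul, HahnSeries.coeff_smul, smul_eq_mul]

theorem theta_qExpand (n : ℕ) [NeZero n] (f : LaurentSeries R) :
    theta (qExpand R n f) = (n : LaurentSeries R) * qExpand R n (theta f) := by
  ext k
  rw [theta_coeff, theta_natCast_mul_coeff]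
  by_cases hk : (n : ℤ) ∣ k
  · obtain ⟨j, rfl⟩ := hk
    rw [qExpand_coeff_mul, qExpand_coeff_mul, theta_coeff]
    push_cast
    ring
  · rw [qExpand_coeff_of_not_dvd n _ hk, qExpand_coeff_of_not_dvd n _ hk, mul_zero, mul_zero]

end Fermat.Agent.S36.Mod

end
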