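/-
S36, modular part (sub-architect helper156).  ABSTRACT FILE (task S36-MOD-TH2; proofs helper226).

The derivation `θ = t d/dt` of `k((t))`, `k` a field: quotients, kernel in characteristic `p`, orders,
Frobenius, independence of powers over `k((t^m))`.
-/
import Fermat.Agent.S36.Mod.Theta

set_option autoImplicit false

noncomputable section

namespace Fermat.Agent.S36.Mod

open ModularCurve

section Field

variable {k : Type*} [Field k]

theorem theta_inv (f : LaurentSeries k) : theta f⁻¹ = -theta f / f ^ 2 := by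
  rcases eq_or_ne f 0 with rfl | hf
  · simp [theta_zero]
  · have h : theta (f * f⁻¹) = 0 := by rw [mul_inv_cancel₀ hf, theta_one]
    rw [theta_mul] at h
    have h2 : f * theta f⁻¹ = -(theta f * f⁻¹) := by
      rw [eq_neg_iff_add_eq_zero, add_comm]; exact h
    rw [eq_div_iff (pow_ne_zero 2 hf)]
    calc theta f⁻¹ * f ^ 2 = (f * theta f⁻¹) * f := by ring
      _ = -(theta f * f⁻¹) * f := by rw [h2]
      _ = -theta f * (f⁻¹ * f) := by ring
      _ = -theta f := by rw [inv_mul_cancel₀ hf, mul_one]

theorem theta_div (f g : LaurentSeries k) (hg : g ≠ 0) :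
    theta (f / g) = (theta f * g - f * theta g) / g ^ 2 := by
  rw [div_eq_mul_inv, theta_mul, theta_inv]
  field_simp
  ring

/-- In characteristic `p` the kernel of `θ` is `k((t^p))`. -/
theorem theta_eq_zero_iff (p : ℕ) [NeZero p] [Fact p.Prime] [CharP k p] (f : LaurentSeries k) :
    theta f = 0 ↔ ∃ g : LaurentSeries k, f = qExpand k p g := by
  have hp0 : (0 : ℤ) < (p : ℤ) := by exact_mod_cast Nat.pos_of_ne_zero (NeZero.ne p)
  constructor
  · intro h
    have hc : ∀ n : ℤ, ¬ (p : ℤ) ∣ n → f.coeff n = 0 := by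
      intro n hn
      have h1 : (theta f).coeff n = 0 := by rw [h]; rfl
      rw [theta_coeff] at h1
      rcases mul_eq_zero.1 h1 with h2 | h2
      · exact absurd ((CharP.intCast_eq_zero_iff k p n).1 h2) hn
      · exact h2
    have hb : BddBelow (Function.support fun n : ℤ => f.coeff ((p : ℤ) * n)) := by
      refine ⟨min f.order 0, fun n hn => ?_⟩
      simp only [Function.mem_support, ne_eq] at hn
      by_contra hlt
      rw [not_le] at hlt
      apply hn
      apply HahnSeries.coeff_eq_zero_of_lt_order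
      have h1 : n < f.order := lt_of_lt_of_le hlt (min_le_left _ _)
      have h2 : n < 0 := lt_of_lt_of_le hlt (min_le_right _ _)
      have h3 : (p : ℤ) * n ≤ 1 * n := by
        apply mul_le_mul_of_nonpos_right _ h2.le
        omega
      omega
    refine ⟨HahnSeries.ofSuppBddBelow _ hb, ?_⟩
    ext n
    by_cases hn : (p : ℤ) ∣ n
    · obtain ⟨m, rfl⟩ := hn
      rw [qExpand_coeff_mul]
      rfl
    · rw [qExpand_coeff_of_not_dvd p _ hn, hc n hn]
  · rintro ⟨g, rfl⟩
    ext n
    rw [theta_coeff]
    by_cases hn : (p : ℤ) ∣ n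
    · rw [(CharP.intCast_eq_zero_iff k p n).2 hn, zero_mul]; rfl
    · rw [qExpand_coeff_of_not_dvd p _ hn, mul_zero]; rfl

theorem theta_coeff_order_ne_zero_aux (p : ℕ) [Fact p.Prime] [CharP k p] {f : LaurentSeries k}
    (hf : f ≠ 0) (h : ¬ (p : ℤ) ∣ f.order) : (theta f).coeff f.order ≠ 0 := by
  rw [theta_coeff]
  refine mul_ne_zero (fun h0 => h ((CharP.intCast_eq_zero_iff k p _).1 h0)) ?_
  rwa [ne_eq, HahnSeries.coeff_order_eq_zero]

theorem theta_ne_zero_of_order (p : ℕ) [Fact p.Prime] [CharP k p] {f : LaurentSeries k}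
    (hf : f ≠ 0) (h : ¬ (p : ℤ) ∣ f.order) : theta f ≠ 0 :=
  HahnSeries.ne_zero_of_coeff_ne_zero (theta_coeff_order_ne_zero_aux p hf h)

/-- `θ` does not lower the order. -/
theorem order_le_order_theta {f : LaurentSeries k} (h : theta f ≠ 0) :
    f.order ≤ (theta f).order := by
  apply HahnSeries.order_le_of_coeff_ne_zero
  intro h0
  have h1 : (theta f).coeff (theta f).order = 0 := by rw [theta_coeff, h0, mul_zero]
  rw [HahnSeries.coeff_order_eq_zero] at h1
  exact h h1

theorem order_theta (p : ℕ) [Fact p.Prime] [CharP k p] {f : LaurentSeries k}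
    (hf : f ≠ 0) (h : ¬ (p : ℤ) ∣ f.order) : (theta f).order = f.order :=
  le_antisymm (HahnSeries.order_le_of_coeff_ne_zero (theta_coeff_order_ne_zero_aux p hf h))
    (order_le_order_theta (theta_ne_zero_of_order p hf h))

/-- Frobenius: `f ^ p = (f^σ)(t^p)`. -/
theorem pow_char_eq_qExpand (p : ℕ) [NeZero p] [Fact p.Prime] [CharP k p] (f : LaurentSeries k) :
    f ^ p = qExpand k p (coeffMap (frobenius k p) f) := by
  have hp0 : (0 : ℤ) < (p : ℤ) := by exact_mod_cast Nat.pos_of_ne_zero (NeZero.ne p)
  have hchar : CharP (LaurentSeries k) p :=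
    charP_of_injective_ringHom (HahnSeries.C_injective (Γ := ℤ) (R := k)) p
  ext n
  -- a bound `N` with `n < p * N`
  obtain ⟨N, hN⟩ : ∃ N : ℤ, n < (p : ℤ) * N := by
    refine ⟨|n| + 1, ?_⟩
    have h1 : n ≤ |n| := le_abs_self n
    have h2 : 1 * (|n| + 1) ≤ (p : ℤ) * (|n| + 1) := by
      apply mul_le_mul_of_nonneg_right (by omega)
      have := abs_nonneg n
      omega
    omega
  have key : ∀ (M : ℕ) (f : LaurentSeries k), (∀ i : ℤ, i < N - M → f.coeff i = 0) →
      (f ^ p).coeff n = (qExpand k p (coeffMap (frobenius k p) f)).coeff n := by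
    intro M
    induction M with
    | zero =>
      intro f hf
      simp only [Nat.cast_zero, sub_zero] at hf
      have hR : (qExpand k p (coeffMap (frobenius k p) f)).coeff n = 0 := by
        by_cases hn : (p : ℤ) ∣ n
        · obtain ⟨m, rfl⟩ := hn
          rw [qExpand_coeff_mul, coeffMap_coeff, hf m (lt_of_mul_lt_mul_left hN hp0.le), map_zero]
        · exact qExpand_coeff_of_not_dvd p _ hn
      rw [hR]
      rcases eq_or_ne f 0 with rfl | hf0
      · rw [zero_pow (NeZero.ne p)]; rfl
      · apply HahnSeries.coeff_eq_zero_of_lt_order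
        rw [HahnSeries.order_pow]
        have h1 : N ≤ f.order := (HahnSeries.le_order_iff_forall hf0).2 hf
        have h2 : (p : ℤ) * N ≤ (p : ℤ) * f.order := mul_le_mul_of_nonneg_left h1 hp0.le
        rw [nsmul_eq_mul]
        exact lt_of_lt_of_le hN h2
    | succ M ih =>
      intro f hf
      set a : ℤ := N - ((M + 1 : ℕ) : ℤ) with ha
      set f' : LaurentSeries k := f - HahnSeries.single a (f.coeff a) with hf'
      have hfe : f = f' + HahnSeries.single a (f.coeff a) := by rw [hf']; ring
      have h' : ∀ i : ℤ, i < N - M → f'.coeff i = 0 := by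
        intro i hi
        rw [hf', HahnSeries.coeff_sub]
        rcases eq_or_ne i a with rfl | hia
        · rw [HahnSeries.coeff_single_same, sub_self]
        · rw [HahnSeries.coeff_single_of_ne hia, sub_zero]
          apply hf
          have : i ≠ N - ((M + 1 : ℕ) : ℤ) := hia
          push_cast at this ⊢
          omega
      have h1 := ih f' h'
      rw [hfe, add_pow_char, map_add, map_add, HahnSeries.coeff_add, HahnSeries.coeff_add, h1,
        HahnSeries.single_pow, coeffMap_single, qExpand_single, nsmul_eq_mul, frobenius_def]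
  refine key (N - f.order).toNat f fun i hi => HahnSeries.coeff_eq_zero_of_lt_order ?_
  have := Int.self_le_toNat (N - f.order)
  omega

theorem order_qExpand_aux (m : ℕ) [NeZero m] {g : LaurentSeries k} (hg : g ≠ 0) :
    (qExpand k m g).order = (m : ℤ) * g.order := by
  have hm0 : (0 : ℤ) < (m : ℤ) := by exact_mod_cast Nat.pos_of_ne_zero (NeZero.ne m)
  have hne : qExpand k m g ≠ 0 := fun h => hg (qExpand_injective m (by rw [h, map_zero]))
  apply le_antisymm
  · apply HahnSeries.order_le_of_coeff_ne_zero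
    rw [qExpand_coeff_mul]
    rwa [ne_eq, HahnSeries.coeff_order_eq_zero]
  · rw [HahnSeries.le_order_iff_forall hne]
    intro j hj
    by_cases hn : (m : ℤ) ∣ j
    · obtain ⟨i, rfl⟩ := hn
      rw [qExpand_coeff_mul]
      exact HahnSeries.coeff_eq_zero_of_lt_order (lt_of_mul_lt_mul_left hj hm0.le)
    · exact qExpand_coeff_of_not_dvd m _ hn

/-- **Independence**: if `ord h` is prime to `m` then `1, h, …, h^(m-1)` are linearly independent
over `k((t^m))`. -/
theorem indep_pow (m : ℕ) [NeZero m] {h : LaurentSeries k} (hh : h ≠ 0)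
    (hord : IsCoprime h.order (m : ℤ)) (g : Fin m → LaurentSeries k)
    (hsum : ∑ s, qExpand k m (g s) * h ^ (s : ℕ) = 0) : ∀ s, g s = 0 := by
  classical
  by_contra hcon
  rw [not_forall] at hcon
  set T : Fin m → LaurentSeries k := fun s => qExpand k m (g s) * h ^ (s : ℕ) with hT
  have hT0 : ∀ s, g s ≠ 0 → T s ≠ 0 := fun s hs =>
    mul_ne_zero (fun h0 => hs (qExpand_injective m (by rw [h0, map_zero]))) (pow_ne_zero _ hh)
  have hT0' : ∀ s, g s = 0 → T s = 0 := fun s hs => by simp [hT, hs]
  have hTord : ∀ s, g s ≠ 0 → (T s).order = (m : ℤ) * (g s).order + (s : ℕ) * h.order := by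
    intro s hs
    rw [hT]
    simp only
    rw [HahnSeries.order_mul (fun h0 => hs (qExpand_injective m (by rw [h0, map_zero])))
      (pow_ne_zero _ hh), order_qExpand_aux m hs, HahnSeries.order_pow, nsmul_eq_mul]
  have hdist : ∀ s s', g s ≠ 0 → g s' ≠ 0 → (T s).order = (T s').order → s = s' := by
    intro s s' hs hs' he
    rw [hTord s hs, hTord s' hs'] at he
    have hd : (m : ℤ) ∣ h.order * (((s : ℕ) : ℤ) - ((s' : ℕ) : ℤ)) :=
      ⟨(g s').order - (g s).order, by linear_combination he⟩
    have hd2 : (m : ℤ) ∣ ((s : ℕ) : ℤ) - ((s' : ℕ) : ℤ) := hord.symm.dvd_of_dvd_mul_left hd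
    have h1 := s.2
    have h2 := s'.2
    have h3 : ((s : ℕ) : ℤ) - ((s' : ℕ) : ℤ) = 0 := by
      apply Int.eq_zero_of_abs_lt_dvd hd2
      rw [abs_lt]
      constructor <;> omega
    apply Fin.ext
    omega
  -- the term of minimal order
  have hne : (Finset.univ.filter fun s => g s ≠ 0).Nonempty := by
    obtain ⟨s, hs⟩ := hcon
    exact ⟨s, by simp [hs]⟩
  obtain ⟨s₀, hs₀, hmin⟩ := Finset.exists_min_image _ (fun s => (T s).order) hne
  rw [Finset.mem_filter] at hs₀
  have hs₀' := hs₀.2
  have hcoeff : (∑ s, T s).coeff (T s₀).order = (T s₀).coeff (T s₀).order := by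
    rw [HahnSeries.coeff_sum]
    apply Finset.sum_eq_single s₀
    · intro s _ hss
      by_cases hs : g s = 0
      · rw [hT0' s hs]; rfl
      · apply HahnSeries.coeff_eq_zero_of_lt_order
        refine lt_of_le_of_ne (hmin s (by simp [hs])) fun he => hss ?_
        exact (hdist s₀ s hs₀' hs he).symm
    · intro hx
      exact absurd (Finset.mem_univ _) hx
  rw [hsum] at hcoeff
  have : (T s₀).coeff (T s₀).order = 0 := hcoeff.symm
  rw [HahnSeries.coeff_order_eq_zero] at this
  exact hT0 s₀ hs₀' this

end Field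

end Fermat.Agent.S36.Mod

end
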