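/-
S36, modular part, block S0 (sub-architect helper156).  DEFINITIONS (complete, no unfinished proof;
`midK'_mem` proved by helper141).

`Setup K K'`: `K`, `K'` are ABSTRACT fields embedded in `ℚ̄` (`[Algebra K ℚ̄]`, `[Algebra K' ℚ̄]`; the
embeddings are only used to descend the Atkin-Lehner involutions and the expansion at the middle
cusp from `ℚ̄`).  `B` is a discrete valuation ring of `K` with uniformiser `q` (in the application:
the ring of integers of the inertia field), `K' ⊇ K(ζ_q)` with a discrete valuation ring `B'` above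
`B`, `N0` a level prime to `q`.

The function fields `F0 ⊆ F1 ⊆ F2` of levels `N0`, `N0 q`, `N0 q q` over `K`, the degeneracy maps,
the Atkin-Lehner involutions, and the vertical valuation rings
`V0`;  `V1oo`, `V10`;  `V20`, `V11`, `V02`  with their residue maps to `𝕜((t))`, `𝕜 = B' / 𝔪`.
-/
import Fermat.Agent.S36.Mod.EmbK

set_option autoImplicit false
set_option linter.unusedSectionVars false

noncomputable section

namespace Fermat.Agent.S36.Mod

open ModularCurve Fermat.Agent.S24 Fermat.Agent.S18 Fermat.Agent.S18.Vert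
  Fermat.Agent.S18.Descent

/-- The data of the bad prime. -/
structure Setup (K K' : Type*) [Field K] [Field K'] where
  /-- the discrete valuation ring of the base field (inertia field) -/
  B : ValuationSubring K
  /-- a discrete valuation ring of `K'` above `B` -/
  B' : ValuationSubring K'
  /-- the inclusion `K → K'` -/
  ι : K →+* K'
  comap_ι : B'.comap ι = B
  dvr : IsDiscreteValuationRing B
  dvr' : IsDiscreteValuationRing B'
  /-- the level prime to `q` -/
  N0 : ℕ
  /-- the bad prime -/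
  q : ℕ
  neZero : NeZero N0
  hq : q.Prime
  hqN : ¬ q ∣ N0
  /-- `q` is a uniformiser of `B` -/
  unif : Irreducible ((q : ℕ) : B)
  /-- a primitive `q`-th root of unity -/
  ζ : K'ˣ
  hζ : IsPrimitiveRoot ζ q
  /-- `ζ - 1` is a uniformiser of `B'` -/
  π' : B'
  hπ' : Irreducible π'
  hπ'ζ : (π' : K') = (ζ : K') - 1

namespace Setup

attribute [instance] Setup.dvr Setup.dvr' Setup.neZero

variable {K K' : Type*} [Field K] [Field K'] [Algebra ℚ K] [Algebra ℚ K'] [Algebra K Kbar]
  [Algebra K' Kbar] (S : Setup K K')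

instance neZero_q : NeZero S.q := ⟨S.hq.ne_zero⟩

/-- the residue field of `B'` -/
abbrev kk : Type _ := IsLocalRing.ResidueField S.B'

/-- level `N0` -/
abbrev F0 : IntermediateField K (LaurentSeries K) := FK K S.N0

/-- level `N0 q` -/
abbrev F1 : IntermediateField K (LaurentSeries K) := FK K (S.N0 * S.q)

/-- level `N0 q q` -/
abbrev F2 : IntermediateField K (LaurentSeries K) := FK K (S.N0 * S.q * S.q)

/-- `f(τ) ↦ f(τ)`, level `N0` to level `N0 q` -/
def al0 : S.F0 →ₐ[K] S.F1 := heckeAlphaBar K S.N0 S.q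

/-- `f(τ) ↦ f(q τ)`, level `N0` to level `N0 q` -/
def be0 : S.F0 →ₐ[K] S.F1 := heckeBetaBar K S.N0 S.q

/-- `f(τ) ↦ f(τ)`, level `N0 q` to level `N0 q q` -/
def al1 : S.F1 →ₐ[K] S.F2 := heckeAlphaBar K (S.N0 * S.q) S.q

/-- `f(τ) ↦ f(q τ)`, level `N0 q` to level `N0 q q` -/
def be1 : S.F1 →ₐ[K] S.F2 := heckeBetaBar K (S.N0 * S.q) S.q

theorem coprime : S.N0.Coprime S.q :=
  (Nat.Coprime.symm ((Nat.Prime.coprime_iff_not_dvd S.hq).2 S.hqN))

theorem coprime' : S.N0.Coprime (S.q * S.q) := Nat.Coprime.mul_right S.coprime S.coprime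

/-- Atkin-Lehner `w_q` at level `N0 q` -/
def w1 : S.F1 →ₐ[K] S.F1 := wAL K (S.N0 * S.q) S.N0 S.q rfl S.coprime

/-- Atkin-Lehner `w_{q²}` at level `N0 q q` -/
def w2 : S.F2 →ₐ[K] S.F2 :=
  wAL K (S.N0 * S.q * S.q) S.N0 (S.q * S.q) (Nat.mul_assoc _ _ _) S.coprime'

/-- extension of the constants from `K` to `K'` -/
def toK' (N : ℕ) : FK K N →+* FK K' N := baseChangeMap (modularFunctionFieldFull N) S.ι

/-- the expansion at the middle cusp, over `K'` -/
def midK' : FK K' (S.N0 * S.q * S.q) →ₐ[K'] LaurentSeries K' :=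
  mid K' S.N0 S.q S.hq S.hqN S.ζ S.hζ

/-- a root of unity lies in every valuation subring -/
theorem mem_of_pow_eq_one (x : K') (h : x ^ S.q = 1) : x ∈ S.B' := by
  rw [← ValuationSubring.valuation_le_one_iff]
  have h1 : S.B'.valuation x ^ S.q = 1 := by rw [← map_pow, h, map_one]
  exact (((pow_eq_one_iff).1 h1).resolve_right S.hq.ne_zero).le

theorem midK'_mem (f : FK K' (S.N0 * S.q * S.q)) : S.midK' f ∈ quotField S.B' := by
  have hJs : ∀ (d : ℕ) [NeZero d], Js K' d ∈ quotField S.B' := by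
    intro d _
    obtain ⟨P, hP, -⟩ := exists_inc_eq_Js S.B' d
    rw [← hP]
    exact inc_mem_quotField S.B' P
  have hζ1 : (S.ζ : K') ∈ S.B' := by
    apply S.mem_of_pow_eq_one
    rw [← Units.val_pow_eq_pow_val, S.hζ.pow_eq_one, Units.val_one]
  have hζ2 : ((S.ζ⁻¹ : K'ˣ) : K') ∈ S.B' := by
    apply S.mem_of_pow_eq_one
    rw [← Units.val_pow_eq_pow_val, inv_pow, S.hζ.pow_eq_one, inv_one, Units.val_one]
  induction f using FK_induction with
  | hJ d _ hd =>
    have hd' : d ∣ S.N0 * S.q ^ 2 := by rwa [sq, ← mul_assoc]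
    obtain ⟨a, b, ha, hb, rfl⟩ := (Nat.dvd_mul).1 hd'
    obtain ⟨i, hi, rfl⟩ := (Nat.dvd_prime_pow S.hq).1 hb
    have : NeZero a :=
      ⟨fun h => (NeZero.ne S.N0) (by rw [h] at ha; exact Nat.eq_zero_of_zero_dvd ha)⟩
    rcases Nat.lt_or_ge i 2 with hi2 | hi2
    · have h1 : a * S.q ^ i ∣ S.N0 * S.q :=
        Nat.mul_dvd_mul ha (by
          have := pow_dvd_pow S.q (Nat.lt_succ_iff.mp hi2)
          rwa [pow_one] at this)
      rw [midK', mid_JK K' S.N0 S.q S.hq S.hqN S.ζ S.hζ _ h1 hd]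
      exact hJs _
    · obtain rfl : i = 2 := le_antisymm hi hi2
      have h2 : a * S.q * S.q ∣ S.N0 * S.q * S.q :=
        Nat.mul_dvd_mul_right (Nat.mul_dvd_mul_right ha S.q) S.q
      have h3 : JK K' (S.N0 * S.q * S.q) (a * S.q ^ 2) hd = JK K' (S.N0 * S.q * S.q) (a * S.q * S.q) h2 :=
        JK_congr K' _ (by ring) _ _
      rw [h3, midK', mid_JK' K' S.N0 S.q S.hq S.hqN S.ζ S.hζ a ha h2]
      exact twist_mem_quotField S.ζ hζ1 hζ2 (hJs a)
  | hc c =>
    rw [AlgHom.commutes]
    exact (quotField S.B').algebraMap_mem c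
  | hadd f g hf hg =>
    have h : S.midK' (f + g) = S.midK' f + S.midK' g := S.midK'.toRingHom.map_add f g
    rw [h]; exact add_mem hf hg
  | hneg f hf =>
    have h : S.midK' (-f) = -S.midK' f := S.midK'.toRingHom.map_neg f
    rw [h]; exact neg_mem hf
  | hmul f g hf hg =>
    have h : S.midK' (f * g) = S.midK' f * S.midK' g := S.midK'.toRingHom.map_mul f g
    rw [h]; exact mul_mem hf hg
  | hinv f hf =>
    have h : S.midK' f⁻¹ = (S.midK' f)⁻¹ := map_inv₀ S.midK'.toRingHom f
    rw [h]; exact inv_mem hf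

/-! ### The integral embeddings -/

/-- level `N0`, cusp `∞` -/
def e0 : IntEmb S.B S.F0 := stdEmb S.B S.N0

/-- level `N0 q`, cusp `∞` -/
def e1oo : IntEmb S.B S.F1 := stdEmb S.B (S.N0 * S.q)

/-- level `N0 q`, cusp `0` -/
def e10 : IntEmb S.B S.F1 := S.e1oo.comp S.w1.toRingHom

/-- level `N0 q q`, cusp `∞` -/
def e20 : IntEmb S.B S.F2 := stdEmb S.B (S.N0 * S.q * S.q)

/-- level `N0 q q`, cusp `0` -/
def e02 : IntEmb S.B S.F2 := S.e20.comp S.w2.toRingHom

/-- level `N0 q q`, cusp `1/q` -/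
def e11 : IntEmb S.B' S.F2 where
  toHom := S.midK'.toRingHom.comp (S.toK' (S.N0 * S.q * S.q))
  mem _ := S.midK'_mem _

/-! ### The vertical valuation rings -/

/-- the Gauss valuation ring of level `N0` -/
def V0 : ValuationSubring S.F0 := S.e0.val

/-- level `N0 q`, component `∞` -/
def V1oo : ValuationSubring S.F1 := S.e1oo.val

/-- level `N0 q`, component `0` -/
def V10 : ValuationSubring S.F1 := S.e10.val

/-- level `N0 q q`, component `(2,0)` (through the cusp `∞`) -/
def V20 : ValuationSubring S.F2 := S.e20.val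

/-- level `N0 q q`, component `(1,1)` (multiplicity `q - 1`) -/
def V11 : ValuationSubring S.F2 := S.e11.val

/-- level `N0 q q`, component `(0,2)` (through the cusp `0`) -/
def V02 : ValuationSubring S.F2 := S.e02.val

/-! ### The residue maps, with values in `𝕜((t))`, `𝕜` the residue field of `B'` -/

/-- extension of the coefficients `k(B) → 𝕜` -/
def cK : LaurentSeries (IsLocalRing.ResidueField S.B) →+* LaurentSeries S.kk :=
  coeffMap (resFieldMap S.ι S.comap_ι)

def r0 : S.V0 →+* LaurentSeries S.kk := S.cK.comp S.e0.res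
def r1oo : S.V1oo →+* LaurentSeries S.kk := S.cK.comp S.e1oo.res
def r10 : S.V10 →+* LaurentSeries S.kk := S.cK.comp S.e10.res
def r20 : S.V20 →+* LaurentSeries S.kk := S.cK.comp S.e20.res
def r02 : S.V02 →+* LaurentSeries S.kk := S.cK.comp S.e02.res
def r11 : S.V11 →+* LaurentSeries S.kk := S.e11.res

/-- `q` as an element of a function field -/
abbrev qF (N : ℕ) : FK K N := ((S.q : ℕ) : FK K N)

/-- `τ₀ = j(q² τ) - j(τ)`, a uniformiser of `V11` -/
def tau0 : S.F2 :=
  JK K (S.N0 * S.q * S.q) (1 * S.q * S.q)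
      (Nat.mul_dvd_mul (Nat.mul_dvd_mul (one_dvd _) dvd_rfl) dvd_rfl) -
    JK K (S.N0 * S.q * S.q) 1 (one_dvd _)

end Setup

end Fermat.Agent.S36.Mod

end
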