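/-
S36, modular part, block S0 (sub-architect helper156).  (task S36-MOD-R)

Relations between the degeneracy maps, the Atkin-Lehner involutions and the expansion at the middle
cusp.  All proofs: both sides are ring homomorphisms, compare on the constants and on the generators
`JK` (`ringHom_ext_JK`, `algHom_ext_JK`, `al_JK`, `be_JK`, `wAL_JK`, `mid_JK`, `mid_JK'`; every
divisor of `N0 * q` is `d * e` with `d ∣ N0`, `e ∣ q`).
-/
import Fermat.Agent.S36.Mod.Setup
import Fermat.Agent.S36.Mod.HalfInst.Compose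

set_option autoImplicit false
set_option linter.unusedSectionVars false

noncomputable section

namespace Fermat.Agent.S36.Mod.Setup

open ModularCurve Fermat.Agent.S24 Fermat.Agent.S18 Fermat.Agent.S18.Vert
  Fermat.Agent.S18.Descent

variable {K K' : Type*} [Field K] [Field K'] [Algebra ℚ K] [Algebra ℚ K'] [Algebra K Kbar]
  [Algebra K' Kbar] (S : Setup K K')

theorem coe_al0 (f : S.F0) : ((S.al0 f : S.F1) : LaurentSeries K) = (f : LaurentSeries K) :=
  coe_heckeAlphaBar _ _ _

theorem coe_be0 (f : S.F0) :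
    ((S.be0 f : S.F1) : LaurentSeries K) = qExpand K S.q (f : LaurentSeries K) :=
  coe_heckeBetaBar _ _ _

theorem coe_al1 (f : S.F1) : ((S.al1 f : S.F2) : LaurentSeries K) = (f : LaurentSeries K) :=
  coe_heckeAlphaBar _ _ _

theorem coe_be1 (f : S.F1) :
    ((S.be1 f : S.F2) : LaurentSeries K) = qExpand K S.q (f : LaurentSeries K) :=
  coe_heckeBetaBar _ _ _

theorem al1_be0 (f : S.F0) : S.al1 (S.be0 f) = S.be1 (S.al0 f) :=
  al_be S.N0 S.q f

theorem w1_w1 (f : S.F1) : S.w1 (S.w1 f) = f := wAL_wAL _ _ _ _ _ _ f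

theorem w2_w2 (f : S.F2) : S.w2 (S.w2 f) = f := wAL_wAL _ _ _ _ _ _ f

theorem w1_al0 (f : S.F0) : S.w1 (S.al0 f) = S.be0 f := by
  have key : S.w1.comp S.al0 = S.be0 := by
    apply algHom_ext_JK
    intro d _ hd
    have h1 : d * 1 ∣ S.N0 * S.q := by rw [mul_one]; exact hd.mul_right _
    have h2 : d * S.q ∣ S.N0 * S.q := Nat.mul_dvd_mul_right hd _
    have h3 : S.q * d ∣ S.N0 * S.q := by rw [mul_comm]; exact h2
    rw [AlgHom.comp_apply, al0, be0, w1, al_JK, be_JK S.N0 S.q d hd h3,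
      JK_congr K (S.N0 * S.q) (mul_one d).symm (hd.mul_right _) h1,
      wAL_JK K (S.N0 * S.q) S.N0 S.q rfl S.coprime d 1 S.q hd (one_mul _) h1 h2]
    exact JK_congr K _ (mul_comm _ _) _ _
  exact congrArg (fun φ : S.F0 →ₐ[K] S.F1 => φ f) key

theorem w1_be0 (f : S.F0) : S.w1 (S.be0 f) = S.al0 f := by
  rw [← w1_al0, w1_w1]

-- `w2_al1`, `w2_be1` : see `HalfInst/Compose.lean` (same statements).

end Fermat.Agent.S36.Mod.Setup

end
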