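/-
S36, modular part, block S0 (sub-architect helper156).  (task S36-MOD-R2)

The expansion at the middle cusp on the images of the two degeneracy maps.  Proofs: both sides are
ring homomorphisms `F1 → K'((t))`, compare on the constants and on the generators `JK`
(`ringHom_ext_JK`, `al_JK`, `be_JK`, `wAL_JK`, `mid_JK`, `mid_JK'`, `coeffMap_Js`, `qExpand_Js`; every
divisor of `N0 * q` is `d * e` with `d ∣ N0`, `e ∈ {1, q}`).
-/
import Fermat.Agent.S36.Mod.Rel

set_option autoImplicit false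
set_option linter.unusedSectionVars false

noncomputable section

namespace Fermat.Agent.S36.Mod.Setup

open ModularCurve Fermat.Agent.S24 Fermat.Agent.S18 Fermat.Agent.S18.Vert
  Fermat.Agent.S18.Descent

variable {K K' : Type*} [Field K] [Field K'] [Algebra ℚ K] [Algebra ℚ K'] [Algebra K Kbar]
  [Algebra K' Kbar] (S : Setup K K')

/-- `ζ` and `ζ⁻¹` are integral. -/
theorem ζ_mem : (S.ζ : K') ∈ S.B' := by
  have h : (S.ζ : K') = (S.π' : K') + 1 := by
    rw [S.hπ'ζ]
    ring
  rw [h]
  exact add_mem S.π'.2 (one_mem _)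

theorem ζ_inv_mem : ((S.ζ⁻¹ : K'ˣ) : K') ∈ S.B' := by
  have h : S.ζ⁻¹ = S.ζ ^ (S.q - 1) := by
    apply inv_eq_of_mul_eq_one_right
    rw [← pow_succ', Nat.sub_add_cancel S.hq.one_le, S.hζ.pow_eq_one]
  rw [h, Units.val_pow_eq_pow_val]
  exact pow_mem S.ζ_mem _

theorem ζ_sub_one_mem : (S.ζ : K') - 1 ∈ S.B'.nonunits := by
  rw [← S.hπ'ζ, ValuationSubring.mem_nonunits_iff_exists_mem_maximalIdeal]
  exact ⟨S.π'.2, (IsLocalRing.mem_maximalIdeal _).2 S.hπ'.not_isUnit⟩

/-- a series in `t^q` is invariant under `t ↦ ζ t`. -/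
theorem twist_qExpand (f : LaurentSeries K') : B.twist S.ζ (qExpand K' S.q f) = qExpand K' S.q f := by
  ext n
  rw [B.twist_coeff]
  by_cases h : (S.q : ℤ) ∣ n
  · obtain ⟨k, rfl⟩ := h
    have h1 : S.ζ ^ ((S.q : ℤ) * k) = 1 := by
      rw [zpow_mul, zpow_natCast, S.hζ.pow_eq_one, one_zpow]
    rw [h1, Units.val_one, one_mul]
  · rw [qExpand_coeff_of_not_dvd _ _ h, mul_zero]

private theorem relMid_toK'_JK (N d : ℕ) [NeZero d] (hd : d ∣ N) :
    S.toK' N (JK K N d hd) = JK K' N d hd :=
  Subtype.ext (coeffMap_Js S.ι d)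

private theorem relMid_e11_const (c : K) :
    S.e11.toHom (algebraMap K S.F2 c) = algebraMap K' (LaurentSeries K') (S.ι c) := by
  show S.midK' (S.toK' _ (algebraMap K S.F2 c)) = _
  rw [toK', baseChangeMap_algebraMap]
  exact S.midK'.commutes _

private theorem relMid_twist_const (c : K') :
    B.twist S.ζ (algebraMap K' (LaurentSeries K') c) = algebraMap K' (LaurentSeries K') c := by
  rw [algebraMap_laurentSeries_eq_single]
  ext n
  rw [B.twist_coeff, HahnSeries.coeff_single]
  split_ifs with h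
  · subst h
    simp
  · simp

/-- The expansion at the middle cusp is the identity on the image of `al1`. -/
theorem e11_al1_coe (f : S.F1) : S.e11.toHom (S.al1 f) = coeffMap S.ι (f : LaurentSeries K) := by
  have key : S.e11.toHom.comp S.al1.toRingHom = (coeffMap S.ι).comp S.F1.val.toRingHom := by
    apply ringHom_ext_JK
    · intro c
      show S.e11.toHom (S.al1 (algebraMap K S.F1 c)) =
        coeffMap S.ι (algebraMap K (LaurentSeries K) c)
      rw [AlgHom.commutes, relMid_e11_const, coeffMap_algebraMap']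
    · intro d _ hd
      show S.midK' (S.toK' _ (S.al1 (JK K _ d hd))) = coeffMap S.ι (Js K d)
      rw [al1, al_JK, relMid_toK'_JK, coeffMap_Js]
      exact mid_JK K' S.N0 S.q S.hq S.hqN S.ζ S.hζ d hd _
  exact congrArg (fun φ : S.F1 →+* LaurentSeries K' => φ f) key

/-- The expansion at the middle cusp on the image of `be1`. -/
theorem e11_be1_coe (f : S.F1) :
    S.e11.toHom (S.be1 f) = B.twist S.ζ (coeffMap S.ι ((S.w1 f : S.F1) : LaurentSeries K)) := by
  have key : S.e11.toHom.comp S.be1.toRingHom =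
      (B.twist S.ζ).comp ((coeffMap S.ι).comp (S.F1.val.toRingHom.comp S.w1.toRingHom)) := by
    apply ringHom_ext_JK
    · intro c
      show S.e11.toHom (S.be1 (algebraMap K S.F1 c)) =
        B.twist S.ζ (coeffMap S.ι ((S.w1 (algebraMap K S.F1 c) : S.F1) : LaurentSeries K))
      rw [AlgHom.commutes, AlgHom.commutes, relMid_e11_const]
      show _ = B.twist S.ζ (coeffMap S.ι (algebraMap K (LaurentSeries K) c))
      rw [coeffMap_algebraMap', relMid_twist_const]
    · intro d _ hd
      show S.midK' (S.toK' _ (S.be1 (JK K _ d hd))) =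
        B.twist S.ζ (coeffMap S.ι ((S.w1 (JK K _ d hd) : S.F1) : LaurentSeries K))
      obtain ⟨d0, e, e', rfl, hd0, he, he0, he'0⟩ := EmbK.exists_factor S.hq.ne_zero hd
      have : NeZero d0 :=
        ⟨fun h => NeZero.ne S.N0 (by rw [h] at hd0; exact Nat.eq_zero_of_zero_dvd hd0)⟩
      have : NeZero e := ⟨he0⟩
      have : NeZero e' := ⟨he'0⟩
      have h2 : d0 * e' ∣ S.N0 * S.q := Nat.mul_dvd_mul hd0 ⟨e, by rw [← he, mul_comm]⟩
      have hbe : S.q * (d0 * e) ∣ S.N0 * S.q * S.q := by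
        rw [mul_comm S.q]
        exact Nat.mul_dvd_mul_right hd S.q
      rw [w1, wAL_JK K (S.N0 * S.q) S.N0 S.q rfl S.coprime d0 e e' hd0 he hd h2, coe_JK,
        coeffMap_Js, be1, be_JK (S.N0 * S.q) S.q (d0 * e) hd hbe, relMid_toK'_JK]
      rcases (Nat.dvd_prime S.hq).1 ⟨e', he.symm⟩ with rfl | rfl
      · -- `e = 1`, `e' = q`
        obtain rfl : e' = S.q := by rw [← he, one_mul]
        have h3 : S.q * (d0 * 1) ∣ S.N0 * S.q := by
          rw [mul_one, mul_comm]
          exact Nat.mul_dvd_mul_right hd0 S.q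
        rw [midK', mid_JK K' S.N0 S.q S.hq S.hqN S.ζ S.hζ _ h3 hbe,
          Js_congr K' (show d0 * S.q = S.q * d0 from mul_comm _ _),
          ← qExpand_Js (L := K') S.q d0, twist_qExpand, qExpand_Js]
        exact Js_congr K' (by rw [mul_one])
      · -- `e = q`, `e' = 1`
        obtain rfl : e' = 1 := by
          have := S.hq.pos
          exact Nat.eq_of_mul_eq_mul_left this (by rw [he, mul_one])
        have h3 : d0 * S.q * S.q ∣ S.N0 * S.q * S.q :=
          Nat.mul_dvd_mul_right (Nat.mul_dvd_mul_right hd0 S.q) S.q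
        rw [JK_congr K' _ (show S.q * (d0 * S.q) = d0 * S.q * S.q by ring) hbe h3, midK',
          mid_JK' K' S.N0 S.q S.hq S.hqN S.ζ S.hζ d0 hd0 h3]
        exact congrArg _ (Js_congr K' (by rw [mul_one]))
  exact congrArg (fun φ : S.F1 →+* LaurentSeries K' => φ f) key

/-- In particular on the image of `be1 ∘ be0`: `f(q² τ) ↦ f(τ + 1/q)`. -/
theorem e11_be1_be0 (f : S.F0) :
    S.e11.toHom (S.be1 (S.be0 f)) = B.twist S.ζ (coeffMap S.ι (f : LaurentSeries K)) := by
  rw [e11_be1_coe, w1_be0, coe_al0]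

theorem e11_al1_al0 (f : S.F0) :
    S.e11.toHom (S.al1 (S.al0 f)) = coeffMap S.ι (f : LaurentSeries K) := by
  rw [e11_al1_coe, coe_al0]

theorem e20_apply (f : S.F2) : S.e20.toHom f = (f : LaurentSeries K) := rfl

theorem e02_apply (f : S.F2) : S.e02.toHom f = ((S.w2 f : S.F2) : LaurentSeries K) := rfl

theorem e1oo_apply (f : S.F1) : S.e1oo.toHom f = (f : LaurentSeries K) := rfl

theorem e10_apply (f : S.F1) : S.e10.toHom f = ((S.w1 f : S.F1) : LaurentSeries K) := rfl

theorem e0_apply (f : S.F0) : S.e0.toHom f = (f : LaurentSeries K) := rfl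

end Fermat.Agent.S36.Mod.Setup

end
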