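/-
S36, modular part, block S0 (sub-architect helper156): THE TABLE (collects `Table/*`).
-/
import Fermat.Agent.S36.Mod.Table.Comap
import Fermat.Agent.S36.Mod.Table.Res
import Fermat.Agent.S36.Mod.Table.Const
import Fermat.Agent.S36.Mod.Table.Gen
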