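/-
S36, modular part, block S0 (sub-architect helper156).  ABSTRACT FILE (task S36-MOD-CNT, proved by
helper151).

The fundamental (in)equality `∑ e_i f_i = n` for the extensions of a discrete valuation ring in a
finite separable extension, in the form in which it is used:
if `V i` are pairwise distinct extensions of `V₀` with `e_i ≥ a i` (witness `τ i ≠ 0`), `f_i ≥ b i`
(witnesses `y i s`) and `∑ a i * b i ≥ n` then the `V i` are ALL the extensions, `τ i` is a
uniformiser of `V i`, `ϖ / τ i ^ a i` is a unit and the `y i s` span the residue field.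

Proof: `D := integralClosure V₀ F` is a Dedekind domain, the extensions of `V₀` are the
localisations of `D` at the primes over the maximal ideal, `Ideal.sum_ramification_inertia`
(`Count/Ded.lean`, `Count/Aklb.lean`, `Count/Bridge.lean`).

NOTE: the hypothesis `hτ0 : ∀ i, τ i ≠ 0` is necessary (with `τ i = 0` the hypothesis `hτa` is
empty because `x / 0 = 0`).
-/
import Mathlib
import Fermat.Agent.S18.Defs
import Fermat.Agent.S18.Chart.DedUnif
import Fermat.Agent.S36.Mod.Count.Aklb
import Fermat.Agent.S36.Mod.Count.Bridge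

set_option autoImplicit false
set_option linter.style.haveILetI false

namespace Fermat.Agent.S36.Mod

open Fermat.Agent.S18 IsDedekindDomain WithZero

theorem count {F₀ F : Type*} [Field F₀] [Field F] [Algebra F₀ F] [FiniteDimensional F₀ F]
    [Algebra.IsSeparable F₀ F]
    (V₀ : ValuationSubring F₀) (ϖ : F₀) (h₀ : IsUnif V₀ ϖ)
    {ι : Type*} [Fintype ι] (V : ι → ValuationSubring F) (hinj : Function.Injective V)
    (hext : ∀ i, (V i).comap (algebraMap F₀ F) = V₀)
    (a b : ι → ℕ) (τ : ι → F)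
    (hτ : ∀ i, τ i ∈ (V i).nonunits) (hτ0 : ∀ i, τ i ≠ 0)
    (hτa : ∀ i, algebraMap F₀ F ϖ / τ i ^ a i ∈ V i)
    (y : ∀ i, Fin (b i) → F) (hy : ∀ i s, y i s ∈ V i)
    (hind : ∀ i (c : Fin (b i) → F₀), (∀ s, c s ∈ V₀) →
      ∑ s, algebraMap F₀ F (c s) * y i s ∈ (V i).nonunits → ∀ s, c s ∈ V₀.nonunits)
    (hsum : Module.finrank F₀ F ≤ ∑ i, a i * b i) :
    (∀ W : ValuationSubring F, W.comap (algebraMap F₀ F) = V₀ → ∃ i, W = V i) ∧
    (∀ i, IsUnif (V i) (τ i)) ∧
    (∀ i, (algebraMap F₀ F ϖ / τ i ^ a i)⁻¹ ∈ V i) ∧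
    (∀ i, ∀ z ∈ V i, ∃ c : Fin (b i) → F₀, (∀ s, c s ∈ V₀) ∧
      z - ∑ s, algebraMap F₀ F (c s) * y i s ∈ (V i).nonunits) := by
  classical
  haveI : IsDiscreteValuationRing V₀ := h₀.isDiscreteValuationRing
  haveI : IsDedekindDomain (integralClosure V₀ F) := integralClosure.isDedekindDomain V₀ F₀ F
  haveI : IsFractionRing (integralClosure V₀ F) F :=
    integralClosure.isFractionRing_of_finite_extension F₀ F
  haveI : Module.Finite V₀ (integralClosure V₀ F) :=
    IsIntegralClosure.finite V₀ F₀ F (integralClosure V₀ F)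
  -- the prime of `V₀`
  let v : HeightOneSpectrum V₀ := IsDiscreteValuationRing.maximalIdeal V₀
  have hv : v.asIdeal = IsLocalRing.maximalIdeal V₀ := rfl
  have hirr : Irreducible (⟨ϖ, h₀.mem⟩ : V₀) := h₀.irreducible
  have hϖ : v.intValuation (⟨ϖ, h₀.mem⟩ : V₀) = exp (-1 : ℤ) :=
    v.intValuation_singleton hirr.ne_zero (by rw [hv, hirr.maximalIdeal_eq])
  -- the primes attached to the extensions
  have hex : ∀ W : ValuationSubring F, W.comap (algebraMap F₀ F) = V₀ →
      ∃ w : HeightOneSpectrum (integralClosure V₀ F), (w.valuation F).valuationSubring = W ∧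
        w.asIdeal.LiesOver v.asIdeal := by
    intro W hW
    obtain ⟨w, hw⟩ := Count.exists_heightOneSpectrum (B := integralClosure V₀ F) W
      (fun β => Count.mem_of_isIntegral_of_comap_eq V₀ W hW (x := (β : F)) β.2)
      (Count.ne_top_of_comap_eq h₀ W hW)
    refine ⟨w, hw, ⟨?_⟩⟩
    haveI := v.isMaximal
    refine Ideal.IsMaximal.eq_of_le inferInstance (Ideal.IsPrime.ne_top inferInstance) ?_
    rw [hv, hirr.maximalIdeal_eq, Ideal.span_le, Set.singleton_subset_iff, SetLike.mem_coe,
      Ideal.under_def, Ideal.mem_comap, ← HeightOneSpectrum.valuation_lt_one_iff_mem (K := F)]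
    by_contra hcon
    push Not at hcon
    apply h₀.inv_notMem
    rw [← hW, ValuationSubring.mem_comap, ← hw, Valuation.mem_valuationSubring_iff, map_inv₀,
      map_inv₀]
    exact inv_le_one_of_one_le₀ hcon
  choose w hwV hwv using fun i => hex (V i) (hext i)
  have hwinj : Function.Injective w := fun i j hij => hinj (by rw [← hwV i, ← hwV j, hij])
  have hmem : ∀ i (x : F), x ∈ V i ↔ (w i).valuation F x ≤ 1 := fun i x => by
    rw [← hwV i, Valuation.mem_valuationSubring_iff]
  have hnon : ∀ i (x : F), x ∈ (V i).nonunits ↔ (w i).valuation F x < 1 := fun i x => by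
    rw [← hwV i, Count.mem_nonunits_valuationSubring_iff]
  obtain ⟨h1, h2, h3, h4⟩ := Count.count_aklb F F₀ v (⟨ϖ, h₀.mem⟩ : V₀) hϖ w hwv hwinj a b τ hτ0
    (fun i => (hnon i _).mp (hτ i)) (fun i => (hmem i _).mp (hτa i)) y
    (fun i s => (hmem i _).mp (hy i s))
    (fun i c hc s => by
      have := hind i (fun s => (c s : F₀)) (fun s => (c s).2) ((hnon i _).mpr hc) s
      obtain ⟨_, h⟩ := ValuationSubring.mem_nonunits_iff_exists_mem_maximalIdeal.mp this
      exact h) hsum
  refine ⟨fun W hW => ?_, fun i => ?_, fun i => ?_, fun i z hz => ?_⟩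
  · obtain ⟨w', hw', hw'v⟩ := hex W hW
    obtain ⟨i, rfl⟩ := h1 w' hw'v
    exact ⟨i, by rw [← hw', hwV i]⟩
  · rw [← hwV i]
    exact Count.isUnif_of_valuation _ (h2 i)
  · rw [hmem i, map_inv₀]
    have := h3 i
    rw [show algebraMap V₀ F (⟨ϖ, h₀.mem⟩ : V₀) = algebraMap F₀ F ϖ from rfl] at this
    rw [this, inv_one]
  · obtain ⟨c, hc⟩ := h4 i z ((hmem i z).mp hz)
    exact ⟨fun s => (c s : F₀), fun s => (c s).2, (hnon i _).mpr hc⟩

end Fermat.Agent.S36.Mod
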