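/-
S36, modular part: the SHARED DEFINITIONS of the instance layer (verbatim from helper98's
`BAD/Model/WIP/Instance.lean`; file landed by helper167 so that the providers of the fields of
`BAD.Model.InstData` can import them).  Definitions only.
-/
import Fermat.Agent.S36.Mod.Setup
import Fermat.Agent.S36.BP.Defs
import Fermat.Agent.S18.ModDefs

set_option autoImplicit false

noncomputable section

namespace Fermat.Agent.S36.Mod.Setup

open ModularCurve Fermat.Agent.S24 Fermat.Agent.S18 Fermat.Agent.S36.BP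

variable {K K' : Type*} [Field K] [Field K'] [Algebra ℚ K] [Algebra ℚ K'] [Algebra K Kbar]
  [Algebra K' Kbar] (S : Setup K K')

/-- `f(z) ↦ f(z)`, level `N0` to level `N0 q q` -/
def ia : S.F0 →ₐ[K] S.F2 := S.al1.comp S.al0

/-- `f(z) ↦ f(q² z)`, level `N0` to level `N0 q q` -/
def ib : S.F0 →ₐ[K] S.F2 := S.be1.comp S.be0

/-- the three vertical valuation rings -/
def VV : Fin 3 → ValuationSubring S.F2 := ![S.V20, S.V11, S.V02]

/-- `j` at level `N0` -/
def j0 : S.F0 := jK K S.N0

/-- The relation between the base coordinate and `j`, in the form in which it is used: for every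
embedding `φ` of `F0` and every local integrally closed `R ⊇ B`. -/
def BaseRel (D : BaseData S.N0 S.q) : Prop :=
  ∀ (φ : S.F0 →ₐ[K] S.F2) (R : Subring S.F2), IsPt S.B R →
    ((φ (D.xK K) ∈ R ∨ (φ (D.xK K))⁻¹ ∈ R) → (φ S.j0 ∈ R ∨ (φ S.j0)⁻¹ ∈ rad R)) ∧
    ((φ S.j0 ∈ R ∨ (φ S.j0)⁻¹ ∈ rad R) → (φ (D.xK K) ∈ R ∨ (φ (D.xK K))⁻¹ ∈ R))

end Fermat.Agent.S36.Mod.Setup

end
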