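/-
S36, modular part (sub-architect helper156).  (task S36-MOD-INST, proved by helper61)

Construction of a `Setup` from the hypotheses of `S36.ModelStatement`.
-/
import Fermat.Agent.S36.Mod.Setup
import Fermat.Agent.S36.Mod.Count
import Fermat.Agent.S36.Mod.HalfInst.Cyclo
import Fermat.Agent.S36.BP.Defs
import Fermat.Agent.S18.Chart.DedUnif
import Fermat.Agent.KLB.Kum.Val

set_option autoImplicit false

noncomputable section

namespace Fermat.Agent.S36.Mod

open ModularCurve Fermat.Agent.S24 Fermat.Agent.S18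

/-- nonunits of a valuation subring, without the valuation -/
private theorem inst_mem_nonunits_iff {F : Type*} [Field F] (A : ValuationSubring F) (x : F) :
    x ∈ A.nonunits ↔ x = 0 ∨ x⁻¹ ∉ A := by
  rw [ValuationSubring.mem_nonunits_iff]
  by_cases hx : x = 0
  · subst hx
    simp
  · rw [← ValuationSubring.valuation_le_one_iff, map_inv₀, not_le,
      one_lt_inv₀ (zero_lt_iff.2 ((map_ne_zero _).2 hx))]
    simp [hx]

/-- nonunits and extensions of valuation subrings -/
private theorem inst_map_mem_nonunits_iff {F E : Type*} [Field F] [Field E] (f : F →+* E)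
    (A : ValuationSubring F) (B : ValuationSubring E) (h : B.comap f = A) (x : F) :
    f x ∈ B.nonunits ↔ x ∈ A.nonunits := by
  rw [inst_mem_nonunits_iff, inst_mem_nonunits_iff, map_eq_zero, ← map_inv₀, ← h,
    ValuationSubring.mem_comap]

/-- the abstract form: `ζ - 1` is a uniformiser of every extension of `A₀` to `K(ζ)` -/
private theorem inst_isUnif {K K' : Type*} [Field K] [Field K'] [Algebra K K'] [CharZero K]
    [FiniteDimensional K K'] (A₀ : ValuationSubring K) (B' : ValuationSubring K')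
    (hB' : B'.comap (algebraMap K K') = A₀) (q : ℕ) (hq : q.Prime) (h₀ : IsUnif A₀ (q : K))
    (ζ : K') (hζ : IsPrimitiveRoot ζ q) (hdeg : Module.finrank K K' ≤ q - 1) :
    IsUnif B' (ζ - 1) := by
  have hqA : (q : K) ∈ A₀.nonunits := (inst_mem_nonunits_iff A₀ _).2 (Or.inr h₀.inv_notMem)
  have hqB : (q : K') ∈ B'.nonunits := by
    have := (inst_map_mem_nonunits_iff (algebraMap K K') A₀ B' hB' (q : K)).2 hqA
    rwa [map_natCast] at this
  have hτ0 : ζ - 1 ≠ 0 := sub_ne_zero.2 (hζ.ne_one hq.one_lt)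
  obtain ⟨ε, hε, -, hqε⟩ := cyc_exists_unit B' hζ hq hqB
  have hc := count (F₀ := K) (F := K') A₀ (q : K) h₀ (ι := Unit) (fun _ => B')
    (Function.injective_of_subsingleton _) (fun _ => hB') (fun _ => q - 1) (fun _ => 1)
    (fun _ => ζ - 1) (fun _ => cyc_sub_one_nonunit B' hζ hq hqB) (fun _ => hτ0)
    (fun _ => by
      rw [map_natCast, hqε, mul_div_assoc, div_self (pow_ne_zero _ hτ0), mul_one]
      exact hε)
    (fun _ _ => 1) (fun _ _ => one_mem _)
    (fun _ c _ hsum s => by
      rw [Fin.sum_univ_one, mul_one] at hsum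
      obtain rfl : s = 0 := Subsingleton.elim _ _
      exact (inst_map_mem_nonunits_iff (algebraMap K K') A₀ B' hB' _).1 hsum)
    (by simpa using hdeg)
  exact hc.2.1 ()

/-- `K' = K(ζ_q) ⊆ ℚ̄`, `B'` any extension of `A₀` to `K'`
(`KLB.Kum.exists_valuationSubring_comap_eq`); `count` with `F₀ = K`, `F = K'`, one valuation,
`a = q - 1`, `b = 1`, `τ = ζ - 1` (`[K' : K] ≤ q - 1` since `ζ` is a root of the `q`-th cyclotomic
polynomial; `q / (ζ - 1)^(q-1) ∈ B'` by `HalfInst/Cyclo.cyc_exists_unit`) shows that `ζ - 1` is a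
uniformiser of `B'`; `IsUnif.isDiscreteValuationRing`, `IsUnif.irreducible`
(`S18/Chart/DedUnif.lean`). -/
theorem exists_setup (K : Type) [Field K] [Algebra ℚ K] [Algebra K Kbar] (A₀ : ValuationSubring K)
    (q N₀ : ℕ) [NeZero N₀] (hb : BP.BaseHyp A₀ q) (hqN : ¬ q ∣ N₀) :
    ∃ (K' : Type) (_ : Field K') (_ : Algebra ℚ K') (_ : Algebra K' Kbar) (S : Setup K K'),
      S.B = A₀ ∧ S.q = q ∧ S.N0 = N₀ := by
  have hq : q.Prime := hb.prime
  have : CharZero K := hb.charZero
  have : NeZero q := ⟨hq.ne_zero⟩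
  obtain ⟨ζ₀, hζ₀⟩ := HasEnoughRootsOfUnity.exists_primitiveRoot Kbar q
  have hint : IsIntegral K ζ₀ := (hζ₀.isIntegral hq.pos).tower_top
  have hfd : FiniteDimensional K (IntermediateField.adjoin K {ζ₀}) :=
    IntermediateField.adjoin.finiteDimensional hint
  have hdeg : Module.finrank K (IntermediateField.adjoin K {ζ₀}) ≤ q - 1 := by
    rw [IntermediateField.adjoin.finrank hint]
    have hroot : Polynomial.aeval ζ₀ (Polynomial.cyclotomic q K) = 0 := by
      rw [Polynomial.aeval_def, Polynomial.eval₂_eq_eval_map, Polynomial.map_cyclotomic]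
      exact hζ₀.isRoot_cyclotomic hq.pos
    have h1 := Polynomial.natDegree_le_of_dvd (minpoly.dvd K ζ₀ hroot)
      (Polynomial.cyclotomic_ne_zero q K)
    rwa [Polynomial.natDegree_cyclotomic, Nat.totient_prime hq] at h1
  obtain ⟨B', hB'⟩ := KLB.exists_valuationSubring_comap_eq
    (E := IntermediateField.adjoin K {ζ₀}) A₀
  let ζ₁ : IntermediateField.adjoin K {ζ₀} := ⟨ζ₀, IntermediateField.mem_adjoin_simple_self K ζ₀⟩
  have hζ₁ : IsPrimitiveRoot ζ₁ q :=
    IsPrimitiveRoot.of_map_of_injective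
      (f := algebraMap (IntermediateField.adjoin K {ζ₀}) Kbar) hζ₀
      (algebraMap (IntermediateField.adjoin K {ζ₀}) Kbar).injective
  have hun : IsUnif B' (ζ₁ - 1) := inst_isUnif A₀ B' hB' q hq hb.unif ζ₁ hζ₁ hdeg
  refine ⟨IntermediateField.adjoin K {ζ₀}, inferInstance,
    ((algebraMap K (IntermediateField.adjoin K {ζ₀})).comp (algebraMap ℚ K)).toAlgebra,
    inferInstance,
    { B := A₀
      B' := B'
      ι := algebraMap K (IntermediateField.adjoin K {ζ₀})
      comap_ι := hB'
      dvr := hb.unif.isDiscreteValuationRing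
      dvr' := hun.isDiscreteValuationRing
      N0 := N₀
      q := q
      neZero := inferInstance
      hq := hq
      hqN := hqN
      unif := by
        have h := hb.unif.irreducible
        have e : (⟨(q : K), hb.unif.mem⟩ : A₀) = ((q : ℕ) : A₀) := Subtype.ext (by simp)
        rwa [e] at h
      ζ := Units.mk0 ζ₁ (hζ₁.ne_zero hq.ne_zero)
      hζ := IsPrimitiveRoot.coe_units_iff.1 hζ₁
      π' := ⟨ζ₁ - 1, hun.mem⟩
      hπ' := hun.irreducible
      hπ'ζ := rfl }, rfl, rfl, rfl⟩

end Fermat.Agent.S36.Mod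

end
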