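/-
S36, modular part: residue degree one at level `N0 q` in the language of `Setup`
(`Dense1`: `(V1oo, al0)` and `(V10, be0)`), COMPLETE1, and the four density statements of level
`N0 q q` (fields `dense0a`, `dense1a`, `dense1b`, `dense2b` of `BAD.Model.InstBase`).
Owner helper287.  Built on helper237's `BAD/LevelQ/Mod/Complete/Main.lean` (`dense_FK`),
helper97's `Kron.lean` (`val_bK_eq`) and `HalfInst/Expand.lean` (`exists_Js_frob`).
-/
import Fermat.Agent.S36.Mod.Dense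
import Fermat.Agent.S36.Mod.Table.Comap
import Fermat.Agent.S36.Mod.HalfInst.Expand
import Fermat.Agent.BAD.LevelQ.Mod.Complete.Main
import Fermat.Agent.BAD.LevelQ.Mod.Kron
import Fermat.Agent.BAD.LevelQ.Mod.SetupGauss

set_option autoImplicit false

noncomputable section

namespace Fermat.Agent.S36.Mod.Setup

open ModularCurve Fermat.Agent.S24 Fermat.Agent.S18 Fermat.Agent.S18.Vert
  Fermat.Agent.BAD.LevelQ

variable {K K' : Type*} [Field K] [Field K'] [Algebra ℚ K] [Algebra ℚ K'] [Algebra K Kbar]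
  [Algebra K' Kbar] (S : Setup K K')

/-- Atkin-Lehner `w_q` at level `N0 q` as an automorphism. -/
def w1e : S.F1 ≃ₐ[K] S.F1 :=
  AlgEquiv.ofAlgHom S.w1 S.w1 (AlgHom.ext S.w1_w1) (AlgHom.ext S.w1_w1)

theorem w1e_apply (f : S.F1) : S.w1e f = S.w1 f := rfl

theorem valuation_q_lt_one : S.B.valuation ((S.q : ℕ) : K) < 1 := by
  have h := S.isUnif_B
  refine lt_of_le_of_ne ((S.B.valuation_le_one_iff _).2 h.mem) fun h1 => h.inv_notMem ?_
  rw [← S.B.valuation_le_one_iff, map_inv₀, h1, inv_one]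

/-- Kronecker's congruence for `j` at the component `∞` of level `N0 q`. -/
theorem valuation_aK_lt_one : S.V1oo.valuation (Kron.aK K S.N0 S.q) < 1 := by
  obtain ⟨U, hU⟩ := exists_Js_frob S.B S.q S.hq 1
  have hj : ((jK K S.N0 : S.F0) : LaurentSeries K) = Js K 1 := by
    rw [Js, qExpand_one_apply]
    rfl
  have h := S.e1oo.sub_mem_nonunits (f := S.be0 (jK K S.N0)) (g := S.al0 (jK K S.N0) ^ S.q)
    (a := ((S.q : ℕ) : S.B)) S.unif.not_isUnit (U := U) (by
      rw [map_pow, e1oo_apply, e1oo_apply, coe_be0, coe_al0, hj, qExpand_Js]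
      exact hU)
  exact (ValuationSubring.mem_nonunits_iff _).1 h

theorem w1e_aK : S.w1e (Kron.aK K S.N0 S.q) = Kron.bK K S.N0 S.q := by
  have h1 := S.w1_al0 (jK K S.N0)
  have h2 := S.w1_be0 (jK K S.N0)
  rw [w1e_apply]
  show S.w1 (S.be0 (jK K S.N0) - S.al0 (jK K S.N0) ^ S.q) =
    S.al0 (jK K S.N0) - S.be0 (jK K S.N0) ^ S.q
  rw [map_sub, map_pow, h1, h2]

theorem valuation_w1e_aK : S.V1oo.valuation (S.w1e (Kron.aK K S.N0 S.q)) = 1 := by
  rw [w1e_aK]
  exact Kron.val_bK_eq S.hq S.valuation_q_lt_one S.isGauss_V1oo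

/-- **DENSE1**. -/
theorem dense1 : S.Dense1 := by
  have hd := dense_FK S.isUnif_B S.hq S.hqN S.isGauss_V0 S.isGauss_V1oo S.w1e S.w1_al0 S.w1_be0
    S.w1_w1 S.valuation_aK_lt_one S.valuation_w1e_aK
  constructor
  · intro y hy
    obtain ⟨r, -, hr⟩ := hd y hy
    refine ⟨r, ?_⟩
    rw [← neg_sub, Valuation.map_neg]
    exact hr
  · intro y hy
    have hy' : S.w1 y ∈ S.V1oo := by
      rw [← S.V1oo_comap_w1] at hy
      exact hy
    obtain ⟨r, -, hr⟩ := hd _ hy'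
    refine ⟨r, ?_⟩
    rw [← S.V1oo_comap_w1, valuation_comap_lt_one_iff]
    show S.V1oo.valuation (S.w1 (S.be0 r - y)) < 1
    rw [map_sub, S.w1_be0, ← neg_sub, Valuation.map_neg]
    exact hr

theorem dense_V20_aa : ∀ y ∈ S.V20, ∃ y' : S.F0, S.V20.valuation (S.al1 (S.al0 y') - y) < 1 :=
  S.dense1.V20_aa

theorem dense_V11_aa : ∀ y ∈ S.V11, ∃ y' : S.F0, S.V11.valuation (S.al1 (S.al0 y') - y) < 1 :=
  S.dense1.V11_aa

theorem dense_V11_bb : ∀ y ∈ S.V11, ∃ y' : S.F0, S.V11.valuation (S.be1 (S.be0 y') - y) < 1 :=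
  S.dense1.V11_bb

theorem dense_V02_bb : ∀ y ∈ S.V02, ∃ y' : S.F0, S.V02.valuation (S.be1 (S.be0 y') - y) < 1 :=
  S.dense1.V02_bb

end Fermat.Agent.S36.Mod.Setup

end
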