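/-
S36, modular part: COMPLETE1 in the language of `Setup`: the only valuation rings of level `N0 q`
above the Gauss valuation ring `V0` of level `N0` (along `al0`, or along `be0`) are `V1oo`, `V10`.
Owner helper287.  Abstract part: `TwoHyp.complete` (`BAD/LevelQ/Abs/TwoComplete.lean`).
-/
import Fermat.Agent.S36.Mod.Dense1
import Fermat.Agent.BAD.LevelQ.Abs.TwoComplete

set_option autoImplicit false
set_option linter.style.haveILetI false
set_option linter.unusedSectionVars false

noncomputable section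

namespace Fermat.Agent.BAD.LevelQ

open Polynomial IntermediateField ModularCurve Fermat.Agent.S24 Fermat.Agent.S18
  Fermat.Agent.S18.Vert Fermat.Agent.S36.Mod

variable {K : Type*} [Field K] [Algebra ℚ K] [Algebra K Kbar] {A₀ : ValuationSubring K} {ϖ₀ : K}
variable {M q : ℕ} [NeZero M] [NeZero q]
variable {Ow' : ValuationSubring (FK K M)} {Voo : ValuationSubring (FK K (M * q))}

/-- transport of completeness by an involution exchanging the two embeddings. -/
theorem complete_of_invol {F₀ F : Type*} [Field F₀] [Field F] (a b : F₀ →+* F) (w : F →+* F)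
    (hww : ∀ x, w (w x) = x) (hwa : ∀ x, w (a x) = b x) {V₀ : ValuationSubring F₀}
    {V₁ V₂ : ValuationSubring F} (h12 : V₁.comap w = V₂) (h21 : V₂.comap w = V₁)
    (hc : ∀ W : ValuationSubring F, W.comap a = V₀ → W = V₁ ∨ W = V₂)
    (W : ValuationSubring F) (hW : W.comap b = V₀) : W = V₁ ∨ W = V₂ := by
  have h1 : (W.comap w).comap a = V₀ := by
    rw [← hW]
    refine ValuationSubring.ext _ _ fun x => ?_
    show w (a x) ∈ W ↔ b x ∈ W
    rw [hwa]
  have h2 : (W.comap w).comap w = W := by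
    refine ValuationSubring.ext _ _ fun x => ?_
    show w (w x) ∈ W ↔ x ∈ W
    rw [hww]
  rcases hc _ h1 with h | h
  · right
    rw [← h2, h, h12]
  · left
    rw [← h2, h, h21]

/-- the list `{v_∞, v_0}` is complete, in the form "valuation rings above `Ow'`". -/
theorem complete_val_FK (h₀ : IsUnif A₀ ϖ₀) (hq : q.Prime) (hqM : ¬ q ∣ M)
    (hG' : IsGauss A₀ ϖ₀ (FK K M) Ow') (hG : IsGauss A₀ ϖ₀ (FK K (M * q)) Voo)
    (w : FK K (M * q) ≃ₐ[K] FK K (M * q))
    (w_al : ∀ f, w (heckeAlphaBar K M q f) = heckeBetaBar K M q f)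
    (w_be : ∀ f, w (heckeBetaBar K M q f) = heckeAlphaBar K M q f)
    (w_w : ∀ y, w (w y) = y) {a : FK K (M * q)}
    (ha₁ : Voo.valuation a < 1) (ha₂ : Voo.valuation (w a) = 1)
    (W : ValuationSubring (FK K (M * q)))
    (hW : W.comap (heckeAlphaBar K M q).toRingHom = Ow') :
    W = Voo ∨ W = Voo.comap
      ((w : FK K (M * q) ≃+* FK K (M * q)) : FK K (M * q) →+* FK K (M * q)) := by
  letI := (heckeAlphaBar K M q).toRingHom.toAlgebra
  exact (twoHyp_FK h₀ hq hqM hG' hG w w_al w_be w_w ha₁ ha₂).complete W hW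

end Fermat.Agent.BAD.LevelQ

namespace Fermat.Agent.S36.Mod.Setup

open ModularCurve Fermat.Agent.S24 Fermat.Agent.S18 Fermat.Agent.BAD.LevelQ

variable {K K' : Type*} [Field K] [Field K'] [Algebra ℚ K] [Algebra ℚ K'] [Algebra K Kbar]
  [Algebra K' Kbar] (S : Setup K K')

theorem V1oo_comap_w1e :
    S.V1oo.comap ((S.w1e : S.F1 ≃+* S.F1) : S.F1 →+* S.F1) = S.V10 := by
  rw [← S.V1oo_comap_w1]
  exact ValuationSubring.ext _ _ fun _ => Iff.rfl

/-- **COMPLETE1** along `al0`. -/
theorem complete1_al0 (W : ValuationSubring S.F1) (hW : W.comap S.al0.toRingHom = S.V0) :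
    W = S.V1oo ∨ W = S.V10 := by
  have h := complete_val_FK S.isUnif_B S.hq S.hqN S.isGauss_V0 S.isGauss_V1oo S.w1e S.w1_al0
    S.w1_be0 S.w1_w1 S.valuation_aK_lt_one S.valuation_w1e_aK W hW
  rw [S.V1oo_comap_w1e] at h
  exact h

/-- **COMPLETE1** along `be0`. -/
theorem complete1_be0 (W : ValuationSubring S.F1) (hW : W.comap S.be0.toRingHom = S.V0) :
    W = S.V1oo ∨ W = S.V10 :=
  complete_of_invol S.al0.toRingHom S.be0.toRingHom S.w1.toRingHom S.w1_w1 S.w1_al0
    S.V1oo_comap_w1 S.V10_comap_w1 S.complete1_al0 W hW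

end Fermat.Agent.S36.Mod.Setup

end
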