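/-
S36, modular part: residue degree one ("density") of the components `V20`, `V11`, `V02` of level
`N0 q q` over level `N0` (fields `dense0a`, `dense1a`, `dense1b`, `dense2b` of
`BAD.Model.InstBase`).  Owner helper287.

`dense_comp`: density composes along a tower.  The four statements follow from the fields
`dense_a`, `dense_m` of `halfα`, `halfβ` and from the density at level `N0 q`
(`Dense1`: `(V1oo, al0)` and `(V10, be0)`).
-/
import Fermat.Agent.S36.Mod.HalfInst.Main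

set_option autoImplicit false

noncomputable section

namespace Fermat.Agent.S36.Mod

open ModularCurve Fermat.Agent.S24 Fermat.Agent.S18

/-- a nonunit of `W.comap ψ` is mapped to a nonunit of `W`. -/
theorem valuation_map_lt_one_of_comap {F₁ F₂ : Type*} [Field F₁] [Field F₂] (ψ : F₁ →+* F₂)
    {U : ValuationSubring F₁} {W : ValuationSubring F₂} (hc : W.comap ψ = U) {x : F₁}
    (hx : U.valuation x < 1) : W.valuation (ψ x) < 1 := by
  subst hc
  by_contra hcon
  rw [not_lt] at hcon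
  have h1 : (ψ x)⁻¹ ∈ W := by
    rw [← W.valuation_le_one_iff, map_inv₀]
    exact inv_le_one_of_one_le₀ hcon
  have h2 : x⁻¹ ∈ W.comap ψ := by
    rw [ValuationSubring.mem_comap, map_inv₀]
    exact h1
  have h3 := ((W.comap ψ).valuation_le_one_iff _).2 h2
  rw [map_inv₀] at h3
  have hx0 : x ≠ 0 := by
    rintro rfl
    rw [map_zero, map_zero] at hcon
    exact absurd hcon (not_le.2 zero_lt_one)
  have h4 : (W.comap ψ).valuation x ≠ 0 := (map_ne_zero _).2 hx0
  exact absurd hx (not_lt.2 ((inv_le_one₀ (zero_lt_iff.2 h4)).1 h3))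

/-- **Density composes along a tower** `F₀ → F₁ → F₂`. -/
theorem dense_comp {F₀ F₁ F₂ : Type*} [Field F₀] [Field F₁] [Field F₂] (φ : F₀ →+* F₁)
    (ψ : F₁ →+* F₂) {U : ValuationSubring F₁} {W : ValuationSubring F₂} (hc : W.comap ψ = U)
    (h1 : ∀ y ∈ U, ∃ r : F₀, U.valuation (φ r - y) < 1)
    (h2 : ∀ y ∈ W, ∃ y' ∈ ψ.fieldRange, W.valuation (y' - y) < 1) :
    ∀ y ∈ W, ∃ r : F₀, W.valuation (ψ (φ r) - y) < 1 := by
  intro y hy
  obtain ⟨_, ⟨z, rfl⟩, hz⟩ := h2 y hy
  have hzW : ψ z ∈ W := by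
    have h3 : ψ z - y ∈ W := (W.valuation_le_one_iff _).1 hz.le
    have := W.add_mem _ _ h3 hy
    rwa [sub_add_cancel] at this
  have hzU : z ∈ U := by
    rw [← hc]
    exact hzW
  obtain ⟨r, hr⟩ := h1 z hzU
  refine ⟨r, ?_⟩
  have h4 : W.valuation (ψ (φ r - z)) < 1 := valuation_map_lt_one_of_comap ψ hc hr
  have h5 : ψ (φ r) - y = ψ (φ r - z) + (ψ z - y) := by
    rw [map_sub]
    ring
  rw [h5]
  exact lt_of_le_of_lt (W.valuation.map_add _ _) (max_lt h4 hz)

namespace Setup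

variable {K K' : Type*} [Field K] [Field K'] [Algebra ℚ K] [Algebra ℚ K'] [Algebra K Kbar]
  [Algebra K' Kbar] (S : Setup K K')

/-- Residue degree one at level `N0 q`: `(V1oo, al0)` and `(V10, be0)`. -/
structure Dense1 : Prop where
  oo : ∀ y ∈ S.V1oo, ∃ r : S.F0, S.V1oo.valuation (S.al0 r - y) < 1
  zero : ∀ y ∈ S.V10, ∃ r : S.F0, S.V10.valuation (S.be0 r - y) < 1

variable {S}

theorem Dense1.V20_aa (h : S.Dense1) :
    ∀ y ∈ S.V20, ∃ y' : S.F0, S.V20.valuation (S.al1 (S.al0 y') - y) < 1 :=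
  dense_comp S.al0.toRingHom S.al1.toRingHom S.V20_comap_al1 h.oo S.halfα.dense_a

theorem Dense1.V11_aa (h : S.Dense1) :
    ∀ y ∈ S.V11, ∃ y' : S.F0, S.V11.valuation (S.al1 (S.al0 y') - y) < 1 :=
  dense_comp S.al0.toRingHom S.al1.toRingHom S.V11_comap_al1 h.oo S.halfα.dense_m

theorem Dense1.V11_bb (h : S.Dense1) :
    ∀ y ∈ S.V11, ∃ y' : S.F0, S.V11.valuation (S.be1 (S.be0 y') - y) < 1 :=
  dense_comp S.be0.toRingHom S.be1.toRingHom S.V11_comap_be1 h.zero S.halfβ.dense_m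

theorem Dense1.V02_bb (h : S.Dense1) :
    ∀ y ∈ S.V02, ∃ y' : S.F0, S.V02.valuation (S.be1 (S.be0 y') - y) < 1 :=
  dense_comp S.be0.toRingHom S.be1.toRingHom S.V02_comap_be1 h.zero S.halfβ.dense_a

end Setup

end Fermat.Agent.S36.Mod

end
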