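/-
S36, modular part (sub-architect helper156).  (task S36-MOD-TW1)

THE MIDDLE COMPONENT AND THE DERIVATION `θ`.  For `T` in the function field `F0` of level `N0`,
integral at the Gauss valuation, the function `τ_T = T(q² τ) - T(τ)` has the expansion
`T(ζ t) - T(t) = (ζ - 1) (θ T + …)` at the middle cusp.  Hence
`red₁₁ (τ_T / τ_T') = θ T̄ / θ T̄'`  and  `red₁₁ (τ_T ^ (q-1) / q) = - (θ T̄) ^ (q-1)`.
-/
import Fermat.Agent.S36.Mod.Table
import Fermat.Agent.S36.Mod.ThetaField
import Fermat.Agent.S36.Mod.HalfInst.Cyclo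

set_option autoImplicit false
set_option linter.unusedSectionVars false

noncomputable section

namespace Fermat.Agent.S36.Mod.Setup

open ModularCurve Fermat.Agent.S24 Fermat.Agent.S18 Fermat.Agent.S18.Vert
  Fermat.Agent.S18.Descent

variable {K K' : Type*} [Field K] [Field K'] [Algebra ℚ K] [Algebra ℚ K'] [Algebra K Kbar]
  [Algebra K' Kbar] (S : Setup K K')

/-! ### TW1 : series -/

private theorem tw_q_nonunit : ((S.q : ℕ) : K') ∈ S.B'.nonunits := by
  rw [ValuationSubring.mem_nonunits_iff]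
  by_contra hcon
  rw [not_lt] at hcon
  have h1 : ((S.q : ℕ) : K')⁻¹ ∈ S.B' := by
    rw [← S.B'.valuation_le_one_iff, map_inv₀]
    exact inv_le_one_of_one_le₀ hcon
  have h2 : ((S.q : ℕ) : K)⁻¹ ∈ S.B := by
    have h3 : ((S.q : ℕ) : K)⁻¹ ∈ S.B'.comap S.ι := by
      show S.ι _ ∈ S.B'
      rw [map_inv₀, map_natCast]
      exact h1
    exact S.comap_ι ▸ h3
  apply S.unif.not_isUnit
  have h0 : ((S.q : ℕ) : K) ≠ 0 := by
    intro h
    apply S.unif.ne_zero
    apply Subtype.ext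
    simpa using h
  refine isUnit_iff_exists_inv.mpr ⟨⟨_, h2⟩, Subtype.ext ?_⟩
  show (((S.q : ℕ) : S.B) : K) * ((S.q : ℕ) : K)⁻¹ = 1
  have h4 : (((S.q : ℕ) : S.B) : K) = ((S.q : ℕ) : K) := by simp
  rw [h4, mul_inv_cancel₀ h0]

private theorem tw_residue_pi : IsLocalRing.residue S.B' S.π' = 0 := by
  rw [IsLocalRing.residue_eq_zero_iff, IsLocalRing.mem_maximalIdeal, mem_nonunits_iff]
  exact S.hπ'.not_isUnit

/-- `P(ζ t) - P(t) = (ζ - 1) U` with `U ≡ θ P`. -/
theorem exists_twist_sub (P : LaurentSeries S.B') :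
    ∃ U : LaurentSeries S.B',
      B.twist S.ζ (inc S.B' P) - inc S.B' P = inc S.B' (HahnSeries.C S.π' * U) ∧
      red S.B' U = theta (red S.B' P) := by
  have hζ' : IsPrimitiveRoot (S.ζ : K') S.q := IsPrimitiveRoot.coe_units_iff.2 S.hζ
  choose c hc h1 h2 using cyc_exists_quot S.B' hζ' S.hq (tw_q_nonunit S)
  let U : LaurentSeries S.B' :=
    { coeff := fun n => (⟨c n, hc n⟩ : S.B') * P.coeff n
      isPWO_support' := P.isPWO_support.mono (by
        intro n hn
        simp only [Function.mem_support, ne_eq] at hn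
        simp only [HahnSeries.mem_support, ne_eq]
        intro h
        exact hn (by rw [h, mul_zero])) }
  have hU : ∀ n, U.coeff n = (⟨c n, hc n⟩ : S.B') * P.coeff n := fun _ => rfl
  refine ⟨U, ?_, ?_⟩
  · ext n
    rw [HahnSeries.coeff_sub, inc_coeff, inc_coeff, coeff_C_mul, hU]
    show ((S.ζ ^ n : K'ˣ) : K') * (P.coeff n : K') - (P.coeff n : K') =
      (S.π' : K') * (c n * (P.coeff n : K'))
    rw [S.hπ'ζ, Units.val_zpow_eq_zpow_val]
    linear_combination (P.coeff n : K') * h1 n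
  · ext n
    rw [red_coeff, theta_coeff, red_coeff, hU, map_mul]
    congr 1
    obtain ⟨ha, hm⟩ := (ValuationSubring.mem_nonunits_iff_exists_mem_maximalIdeal).1 (h2 n)
    have h3 : (⟨c n, hc n⟩ : S.B') - (n : S.B') ∈ IsLocalRing.maximalIdeal S.B' := by
      convert hm using 1
      apply Subtype.ext
      simp
    rw [← IsLocalRing.residue_eq_zero_iff, map_sub, map_intCast, sub_eq_zero] at h3
    exact h3

/-- `P(ζ t)` is integral and has the same reduction as `P`. -/
theorem exists_twist_eq (P : LaurentSeries S.B') :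
    ∃ P' : LaurentSeries S.B', B.twist S.ζ (inc S.B' P) = inc S.B' P' ∧
      red S.B' P' = red S.B' P := by
  obtain ⟨U, h1, -⟩ := exists_twist_sub S P
  refine ⟨P + HahnSeries.C S.π' * U, ?_, ?_⟩
  · rw [map_add, ← h1]
    ring
  · rw [map_add, map_mul, red_C, tw_residue_pi, map_zero, zero_mul, add_zero]

open Polynomial in
private theorem tw_binom (q : ℕ) (hq : q.Prime) {R : Type*} [CommRing R] (x : R) :
    ∃ s : R, (x + 1) ^ q = x ^ q + 1 + (q : R) * x * (1 + x * s) := by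
  obtain ⟨r, hr⟩ := exists_add_pow_prime_eq hq (X : ℤ[X]) 1
  have h0 : r.coeff 0 = 1 := by
    have h := congrArg (fun f => f.coeff 1) hr
    simp only [one_pow, mul_one] at h
    rw [coeff_X_add_one_pow, Nat.choose_one_right, coeff_add, coeff_add, coeff_X_pow,
      if_neg hq.one_lt.ne, coeff_one, if_neg one_ne_zero, zero_add, zero_add, mul_assoc,
      ← C_eq_natCast, Polynomial.coeff_C_mul, coeff_X_mul] at h
    have hq0 : ((q : ℕ) : ℤ) ≠ 0 := by exact_mod_cast hq.ne_zero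
    have h' : ((q : ℕ) : ℤ) * 1 = (q : ℤ) * r.coeff 0 := by simpa using h
    exact (mul_left_cancel₀ hq0 h').symm
  obtain ⟨s, hs⟩ : X ∣ r - C 1 := by
    rw [X_dvd_iff, coeff_sub, coeff_C_zero, h0, sub_self]
  have hr2 : r = 1 + X * s := by
    rw [← hs]
    simp
  have h := congrArg (aeval x) hr
  rw [hr2] at h
  refine ⟨aeval x s, ?_⟩
  simpa using h

/-- Wilson: `(ζ - 1)^(q-1) = q ε` with `ε ≡ -1`. -/
theorem exists_pi_pow : ∃ ε : S.B', S.π' ^ (S.q - 1) = ((S.q : ℕ) : S.B') * ε ∧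
    IsLocalRing.residue S.B' ε = -1 := by
  obtain ⟨s, hs⟩ := tw_binom S.q S.hq S.π'
  have h1 : (S.π' + 1) ^ S.q = 1 := by
    apply Subtype.ext
    have h2 : ((S.ζ : K'ˣ) : K') ^ S.q = 1 := by
      rw [← Units.val_pow_eq_pow_val, S.hζ.pow_eq_one, Units.val_one]
    push_cast
    rw [S.hπ'ζ, sub_add_cancel, h2]
  rw [h1] at hs
  have hq1 : S.q - 1 + 1 = S.q := Nat.sub_add_cancel S.hq.one_le
  refine ⟨-(1 + S.π' * s), ?_, ?_⟩
  · apply mul_left_cancel₀ S.hπ'.ne_zero
    rw [← pow_succ', hq1]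
    linear_combination -hs
  · rw [map_neg, map_add, map_mul, tw_residue_pi, zero_mul, add_zero, map_one]

end Fermat.Agent.S36.Mod.Setup

end
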