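/-
S36, modular part (sub-architect helper156).  (task S36-MOD-TW2)

THE MIDDLE COMPONENT AND THE DERIVATION `θ`.  For `T` in the function field `F0` of level `N0`,
integral at the Gauss valuation, the function `τ_T = T(q² τ) - T(τ)` has the expansion
`T(ζ t) - T(t) = (ζ - 1) (θ T + …)` at the middle cusp.  Hence
`red₁₁ (τ_T / τ_T') = θ T̄ / θ T̄'`  and  `red₁₁ (τ_T ^ (q-1) / q) = - (θ T̄) ^ (q-1)`.
-/
import Fermat.Agent.S36.Mod.Table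
import Fermat.Agent.S36.Mod.ThetaField
import Fermat.Agent.S36.Mod.TwSeries

set_option autoImplicit false
set_option linter.unusedSectionVars false

noncomputable section

namespace Fermat.Agent.S36.Mod.Setup

open ModularCurve Fermat.Agent.S24 Fermat.Agent.S18 Fermat.Agent.S18.Vert
  Fermat.Agent.S18.Descent

/-! ### Generic algebra -/

theorem Tw_alg1 {L : Type*} [Field L] {c a b b₁ : L} (a₁ : L) (hc : c ≠ 0) (ha : a ≠ 0)
    (hb : b ≠ 0) (hb₁ : b₁ ≠ 0) (m : ℕ) :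
    (c ^ m * a₁ / b₁) / (c * a / b) ^ m * (b₁ * a ^ m) = a₁ * b ^ m := by
  rw [div_pow, mul_pow]
  field_simp

theorem Tw_alg2 {L : Type*} [Field L] {c b b₁ : L} (a a₁ : L) (hc : c ≠ 0)
    (hb : b ≠ 0) (hb₁ : b₁ ≠ 0) (m : ℕ) :
    ((c ^ m)⁻¹ * a₁ / b₁) * (c * a / b) ^ m * (b₁ * b ^ m) = a₁ * a ^ m := by
  rw [div_pow, mul_pow]
  field_simp

theorem Tw_alg3 {R : Type*} [CommRing R] {tf f tQ Q tP P c UP UQ : R} (h1 : tf * tQ = tP)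
    (hf : f * Q = P) (h2 : tP - P = c * UP) (h3 : tQ - Q = c * UQ) :
    (tf - f) * (tQ * Q) = c * (UP * Q - P * UQ) := by
  linear_combination Q * h1 - tQ * hf + Q * h2 - P * h3

theorem Tw_alg4 {R : Type*} [CommRing R] (x a g y : R) :
    (x * a + g * y) * a - g * a * y = x * (a * a) := by
  ring

theorem Tw_alg5 {L : Type*} [Field L] {c p' q q' : L} (p : L) (hc : c ≠ 0) (hp' : p' ≠ 0)
    (hq : q ≠ 0) (hq' : q' ≠ 0) :
    (c * p / q) / (c * p' / q') * (q * p') = p * q' := by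
  field_simp

theorem Tw_alg6 {L : Type*} [Field L] {r θ θ' Q Q' : L} (hθ' : θ' ≠ 0) (hQ : Q ≠ 0) (hQ' : Q' ≠ 0)
    (h : r * (Q * (θ' * Q')) = θ * Q * Q') : r = θ / θ' := by
  rw [eq_div_iff hθ']
  apply mul_right_cancel₀ (mul_ne_zero hQ hQ')
  linear_combination h

theorem Tw_alg7 {L : Type*} [Field L] {c q N e : L} (p : L) (hq : q ≠ 0) (hN : N ≠ 0) (n : ℕ)
    (h : c ^ n = N * e) : (c * p / q) ^ n / N * q ^ n = e * p ^ n := by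
  rw [div_pow, mul_pow, h]
  field_simp

theorem Tw_mem_of_comap {R F F' : Type*} [CommSemiring R] [Field F] [Field F'] [Algebra R F]
    [Algebra R F'] (f : F →ₐ[R] F') {V' : ValuationSubring F'} {V : ValuationSubring F}
    (h : V'.comap f.toRingHom = V) {x : F} (hx : x ∈ V) : f x ∈ V' := by
  rw [← h] at hx
  exact hx

/-- Generalisation of `IntEmb.isUnif_val`: `τ` is a uniformiser of `φ.val` as soon as its expansion
is a uniformiser of `A` times a quotient of integral series with nonzero reductions. -/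
theorem Tw_isUnif_val {K : Type*} [Field K] {A : ValuationSubring K} [IsDiscreteValuationRing A]
    {F : Type*} [Field F] (φ : IntEmb A F) {π : A} (hπ : Irreducible π) {τ : F}
    {P Q : LaurentSeries A} (hP : red A P ≠ 0) (hQ : red A Q ≠ 0)
    (h : φ.toHom τ * inc A Q = inc A (HahnSeries.C π * P)) : IsUnif φ.val τ := by
  have hπ0 : (π : K) ≠ 0 := fun h0 => hπ.ne_zero (Subtype.ext h0)
  have hc : algebraMap K (LaurentSeries K) (π : K) ≠ 0 := (map_ne_zero _).2 hπ0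
  have hP0 : inc A P ≠ 0 := inc_ne_zero_of_red_ne_zero hP
  have hQ0 : inc A Q ≠ 0 := inc_ne_zero_of_red_ne_zero hQ
  have h' : φ.toHom τ = algebraMap K (LaurentSeries K) (π : K) * inc A P / inc A Q := by
    rw [eq_div_iff hQ0, h, map_mul, inc_C]
  have hτ : τ ≠ 0 := by
    rintro rfl
    rw [map_zero] at h'
    exact (div_ne_zero (mul_ne_zero hc hP0) hQ0) h'.symm
  have hmem : τ ∈ φ.val.nonunits :=
    (φ.mem_nonunits_iff τ).2 ⟨HahnSeries.C π * P, Q, hQ, (red_eq_zero_iff hπ _).2 ⟨P, rfl⟩, h⟩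
  refine ⟨ValuationSubring.nonunits_subset hmem, ?_, ?_⟩
  · intro hinv
    rcases (IntEmb.mem_nonunits_iff_aux φ.val τ).1 hmem with h0 | h0
    exacts [hτ h0, h0 hinv]
  · intro y hy
    obtain ⟨n, P₁, Q₁, hP₁, hQ₁, hPQ⟩ := φ.exists_normal hπ y hy
    have hQ₁0 : inc A Q₁ ≠ 0 := inc_ne_zero_of_red_ne_zero hQ₁
    refine ⟨n, ?_⟩
    have key : ∃ P' Q' : LaurentSeries A, red A P' ≠ 0 ∧ red A Q' ≠ 0 ∧
        φ.toHom (y / τ ^ n) * inc A Q' = inc A P' := by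
      obtain ⟨m, rfl | rfl⟩ := n.eq_nat_or_neg
      · refine ⟨P₁ * Q ^ m, Q₁ * P ^ m,
          by rw [map_mul, map_pow]; exact mul_ne_zero hP₁ (pow_ne_zero _ hQ),
          by rw [map_mul, map_pow]; exact mul_ne_zero hQ₁ (pow_ne_zero _ hP), ?_⟩
        rw [zpow_natCast, map_pow] at hPQ
        have hy' : φ.toHom y =
            algebraMap K (LaurentSeries K) (π : K) ^ m * inc A P₁ / inc A Q₁ := by
          rw [eq_div_iff hQ₁0, hPQ]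
        rw [zpow_natCast, map_div₀, map_pow, h', hy', map_mul, map_pow, map_mul, map_pow]
        exact Tw_alg1 _ hc hP0 hQ0 hQ₁0 m
      · refine ⟨P₁ * P ^ m, Q₁ * Q ^ m,
          by rw [map_mul, map_pow]; exact mul_ne_zero hP₁ (pow_ne_zero _ hP),
          by rw [map_mul, map_pow]; exact mul_ne_zero hQ₁ (pow_ne_zero _ hQ), ?_⟩
        rw [zpow_neg, zpow_natCast, map_inv₀, map_pow] at hPQ
        have hy' : φ.toHom y =
            (algebraMap K (LaurentSeries K) (π : K) ^ m)⁻¹ * inc A P₁ / inc A Q₁ := by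
          rw [eq_div_iff hQ₁0, hPQ]
        rw [zpow_neg, zpow_natCast, div_inv_eq_mul, map_mul, map_pow, h', hy', map_mul, map_pow,
          map_mul, map_pow]
        exact Tw_alg2 _ _ hc hQ0 hQ₁0 m
    obtain ⟨P', Q', hP', hQ', hh⟩ := key
    exact ⟨(φ.mem_val_iff _).2 ⟨P', Q', hQ', hh⟩, φ.inv_mem_val_of_pres hP' hh⟩

variable {K K' : Type*} [Field K] [Field K'] [Algebra ℚ K] [Algebra ℚ K'] [Algebra K Kbar]
  [Algebra K' Kbar] (S : Setup K K')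

/-! ### TW2 : functions -/

/-- `τ_T = T(q² τ) - T(τ)` -/
def tauT (T : S.F0) : S.F2 := S.be1 (S.be0 T) - S.al1 (S.al0 T)

/-- the expansion of `τ_T` at the middle cusp -/
theorem exists_e11_tauT (T : S.F0) (hT : T ∈ S.V0) :
    ∃ P Q : LaurentSeries S.B', red S.B' Q ≠ 0 ∧
      S.e11.toHom (S.tauT T) * inc S.B' Q = inc S.B' (HahnSeries.C S.π' * P) ∧
      red S.B' P = theta (S.r0 ⟨T, hT⟩) * red S.B' Q := by
  obtain ⟨P₀, Q₀, hQ₀, h₀⟩ := (S.e0.mem_val_iff T).1 hT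
  have hres : S.e0.res ⟨T, hT⟩ * red S.B Q₀ = red S.B P₀ := S.e0.res_spec ⟨T, hT⟩ hQ₀ h₀
  obtain ⟨P₁, hP₁, hrP₁⟩ : ∃ P₁ : LaurentSeries S.B', coeffMap S.ι (inc S.B P₀) = inc S.B' P₁ ∧
      red S.B' P₁ = S.cK (red S.B P₀) :=
    ⟨_, IntEmb.bc_inc S.ι S.comap_ι P₀, IntEmb.bc_red S.ι S.comap_ι P₀⟩
  obtain ⟨Q₁, hQ₁, hrQ₁⟩ : ∃ Q₁ : LaurentSeries S.B', coeffMap S.ι (inc S.B Q₀) = inc S.B' Q₁ ∧
      red S.B' Q₁ = S.cK (red S.B Q₀) :=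
    ⟨_, IntEmb.bc_inc S.ι S.comap_ι Q₀, IntEmb.bc_red S.ι S.comap_ι Q₀⟩
  have hne : red S.B' Q₁ ≠ 0 := by
    rw [hrQ₁]
    exact (map_ne_zero S.cK).2 hQ₀
  obtain ⟨f, hfdef⟩ : ∃ f : LaurentSeries K', f = coeffMap S.ι (T : LaurentSeries K) := ⟨_, rfl⟩
  have hf : f * inc S.B' Q₁ = inc S.B' P₁ := by
    rw [← hQ₁, ← hP₁, hfdef, ← map_mul]
    exact congrArg _ h₀
  obtain ⟨UP, hUP, hrUP⟩ := S.exists_twist_sub P₁
  obtain ⟨UQ, hUQ, hrUQ⟩ := S.exists_twist_sub Q₁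
  obtain ⟨Q₁', hQ₁', hrQ₁'⟩ := S.exists_twist_eq Q₁
  refine ⟨UP * Q₁ - P₁ * UQ, Q₁' * Q₁, ?_, ?_, ?_⟩
  · rw [map_mul, hrQ₁']
    exact mul_ne_zero hne hne
  · have he : S.e11.toHom (S.tauT T) = B.twist S.ζ f - f := by
      rw [tauT, map_sub, e11_be1_be0, e11_al1_al0, hfdef]
    have h1 : B.twist S.ζ f * B.twist S.ζ (inc S.B' Q₁) = B.twist S.ζ (inc S.B' P₁) := by
      rw [← map_mul, hf]
    rw [map_mul] at hUP hUQ
    rw [he, map_mul, ← hQ₁', map_mul, map_sub, map_mul, map_mul]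
    exact Tw_alg3 h1 hf hUP hUQ
  · have hg : S.r0 ⟨T, hT⟩ * red S.B' Q₁ = red S.B' P₁ := by
      rw [hrQ₁, hrP₁, ← hres, map_mul]
      rfl
    rw [map_sub, map_mul, map_mul, hrUP, hrUQ, map_mul, hrQ₁', ← hg, theta_mul]
    exact Tw_alg4 _ _ _ _

theorem Tw_red_C_pi_mul (P : LaurentSeries S.B') : red S.B' (HahnSeries.C S.π' * P) = 0 :=
  (red_eq_zero_iff S.hπ' _).2 ⟨P, rfl⟩

theorem tauT_mem_nonunits (T : S.F0) (hT : T ∈ S.V0) : S.tauT T ∈ S.V11.nonunits := by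
  obtain ⟨P, Q, hQ, h, -⟩ := S.exists_e11_tauT T hT
  exact (S.e11.mem_nonunits_iff _).2 ⟨_, Q, hQ, S.Tw_red_C_pi_mul P, h⟩

theorem Tw_pi_ne_zero : algebraMap K' (LaurentSeries K') (S.π' : K') ≠ 0 :=
  (map_ne_zero _).2 fun h0 => S.hπ'.ne_zero (Subtype.ext h0)

theorem tauT_div (T T' : S.F0) (hT : T ∈ S.V0) (hT' : T' ∈ S.V0)
    (h : theta (S.r0 ⟨T', hT'⟩) ≠ 0) :
    ∃ h' : S.tauT T / S.tauT T' ∈ S.V11,
      S.r11 ⟨_, h'⟩ = theta (S.r0 ⟨T, hT⟩) / theta (S.r0 ⟨T', hT'⟩) := by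
  obtain ⟨P, Q, hQ, hPQ, hP⟩ := S.exists_e11_tauT T hT
  obtain ⟨P', Q', hQ', hPQ', hP'⟩ := S.exists_e11_tauT T' hT'
  have hP'0 : red S.B' P' ≠ 0 := by
    rw [hP']
    exact mul_ne_zero h hQ'
  have hc := S.Tw_pi_ne_zero
  have hQi : inc S.B' Q ≠ 0 := inc_ne_zero_of_red_ne_zero hQ
  have hQ'i : inc S.B' Q' ≠ 0 := inc_ne_zero_of_red_ne_zero hQ'
  have hP'i : inc S.B' P' ≠ 0 := inc_ne_zero_of_red_ne_zero hP'0
  have e1 : S.e11.toHom (S.tauT T) =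
      algebraMap K' (LaurentSeries K') (S.π' : K') * inc S.B' P / inc S.B' Q := by
    rw [eq_div_iff hQi, hPQ, map_mul, inc_C]
  have e2 : S.e11.toHom (S.tauT T') =
      algebraMap K' (LaurentSeries K') (S.π' : K') * inc S.B' P' / inc S.B' Q' := by
    rw [eq_div_iff hQ'i, hPQ', map_mul, inc_C]
  have hred : red S.B' (Q * P') ≠ 0 := by
    rw [map_mul]
    exact mul_ne_zero hQ hP'0
  have hrel : S.e11.toHom (S.tauT T / S.tauT T') * inc S.B' (Q * P') = inc S.B' (P * Q') := by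
    rw [map_div₀, e1, e2, map_mul, map_mul]
    exact Tw_alg5 _ hc hP'i hQi hQ'i
  have hmem : S.tauT T / S.tauT T' ∈ S.V11 := (S.e11.mem_val_iff _).2 ⟨_, _, hred, hrel⟩
  refine ⟨hmem, ?_⟩
  have h1 : S.e11.res ⟨_, hmem⟩ * red S.B' (Q * P') = red S.B' (P * Q') :=
    S.e11.res_spec ⟨_, hmem⟩ hred hrel
  show S.e11.res ⟨_, hmem⟩ = _
  rw [map_mul, map_mul, hP, hP'] at h1
  exact Tw_alg6 h hQ hQ' h1

theorem tauT_pow_div (T : S.F0) (hT : T ∈ S.V0) :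
    ∃ h' : S.tauT T ^ (S.q - 1) / ((S.q : ℕ) : S.F2) ∈ S.V11,
      S.r11 ⟨_, h'⟩ = - theta (S.r0 ⟨T, hT⟩) ^ (S.q - 1) := by
  obtain ⟨P, Q, hQ, hPQ, hP⟩ := S.exists_e11_tauT T hT
  obtain ⟨ε, hε, hε1⟩ := S.exists_pi_pow
  have hc := S.Tw_pi_ne_zero
  have hQi : inc S.B' Q ≠ 0 := inc_ne_zero_of_red_ne_zero hQ
  have e1 : S.e11.toHom (S.tauT T) =
      algebraMap K' (LaurentSeries K') (S.π' : K') * inc S.B' P / inc S.B' Q := by
    rw [eq_div_iff hQi, hPQ, map_mul, inc_C]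
  -- `π' ^ (q - 1) = q ε` in `K'((t))`
  have hε' : algebraMap K' (LaurentSeries K') (S.π' : K') ^ (S.q - 1) =
      ((S.q : ℕ) : LaurentSeries K') * inc S.B' (HahnSeries.C ε) := by
    have h1 : algebraMap K' (LaurentSeries K') ((S.π' ^ (S.q - 1) : S.B') : K') =
        algebraMap K' (LaurentSeries K') ((((S.q : ℕ) : S.B') * ε : S.B') : K') := by rw [hε]
    have h2 : ((S.π' ^ (S.q - 1) : S.B') : K') = (S.π' : K') ^ (S.q - 1) := rfl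
    have h3 : ((((S.q : ℕ) : S.B') * ε : S.B') : K') = ((S.q : ℕ) : K') * (ε : K') := rfl
    rw [h2, h3, map_pow, map_mul, map_natCast] at h1
    rw [inc_C]
    exact h1
  have hq0 : ((S.q : ℕ) : LaurentSeries K') ≠ 0 := by
    intro h0
    rw [h0, zero_mul] at hε'
    exact pow_ne_zero _ hc hε'
  have hred : red S.B' (Q ^ (S.q - 1)) ≠ 0 := by
    rw [map_pow]
    exact pow_ne_zero _ hQ
  have hrel : S.e11.toHom (S.tauT T ^ (S.q - 1) / ((S.q : ℕ) : S.F2)) *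
      inc S.B' (Q ^ (S.q - 1)) = inc S.B' (HahnSeries.C ε * P ^ (S.q - 1)) := by
    rw [map_div₀, map_pow, map_natCast, e1, map_pow, map_mul, map_pow]
    exact Tw_alg7 _ hQi hq0 _ hε'
  have hmem : S.tauT T ^ (S.q - 1) / ((S.q : ℕ) : S.F2) ∈ S.V11 :=
    (S.e11.mem_val_iff _).2 ⟨_, _, hred, hrel⟩
  refine ⟨hmem, ?_⟩
  have h1 : S.e11.res ⟨_, hmem⟩ * red S.B' (Q ^ (S.q - 1)) =
      red S.B' (HahnSeries.C ε * P ^ (S.q - 1)) := S.e11.res_spec ⟨_, hmem⟩ hred hrel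
  show S.e11.res ⟨_, hmem⟩ = _
  apply mul_right_cancel₀ hred
  rw [h1, map_mul, red_C, hε1, map_pow, map_pow, hP, mul_pow, map_neg, map_one, neg_one_mul,
    neg_mul]

/-- `τ_T` is a uniformiser of the middle component as soon as `θ T̄ ≠ 0`. -/
theorem isUnif_tauT (T : S.F0) (hT : T ∈ S.V0) (h : theta (S.r0 ⟨T, hT⟩) ≠ 0) :
    IsUnif S.V11 (S.tauT T) := by
  obtain ⟨P, Q, hQ, hPQ, hP⟩ := S.exists_e11_tauT T hT
  exact Tw_isUnif_val S.e11 S.hπ' (by rw [hP]; exact mul_ne_zero h hQ) hQ hPQ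

theorem Tw_al0_mem_V1oo (T : S.F0) (hT : T ∈ S.V0) : S.al0 T ∈ S.V1oo :=
  Tw_mem_of_comap S.al0 S.V1oo_comap_al0 hT

theorem Tw_be0_mem_V1oo (T : S.F0) (hT : T ∈ S.V0) : S.be0 T ∈ S.V1oo :=
  Tw_mem_of_comap S.be0 S.V1oo_comap_be0 hT

theorem Tw_al0_mem_V10 (T : S.F0) (hT : T ∈ S.V0) : S.al0 T ∈ S.V10 :=
  Tw_mem_of_comap S.al0 S.V10_comap_al0 hT

theorem Tw_be0_mem_V10 (T : S.F0) (hT : T ∈ S.V0) : S.be0 T ∈ S.V10 :=
  Tw_mem_of_comap S.be0 S.V10_comap_be0 hT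

theorem Tw_al1_mem_V20 (f : S.F1) (hf : f ∈ S.V1oo) : S.al1 f ∈ S.V20 :=
  Tw_mem_of_comap S.al1 S.V20_comap_al1 hf

theorem Tw_be1_mem_V20 (f : S.F1) (hf : f ∈ S.V1oo) : S.be1 f ∈ S.V20 :=
  Tw_mem_of_comap S.be1 S.V20_comap_be1 hf

theorem Tw_al1_mem_V02 (f : S.F1) (hf : f ∈ S.V10) : S.al1 f ∈ S.V02 :=
  Tw_mem_of_comap S.al1 S.V02_comap_al1 hf

theorem Tw_be1_mem_V02 (f : S.F1) (hf : f ∈ S.V10) : S.be1 f ∈ S.V02 :=
  Tw_mem_of_comap S.be1 S.V02_comap_be1 hf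

/-- `τ_T` at the two other components. -/
theorem tauT_mem_V20 (T : S.F0) (hT : T ∈ S.V0) : S.tauT T ∈ S.V20 :=
  sub_mem (S.Tw_be1_mem_V20 _ (S.Tw_be0_mem_V1oo T hT)) (S.Tw_al1_mem_V20 _ (S.Tw_al0_mem_V1oo T hT))

theorem r20_tauT (T : S.F0) (hT : T ∈ S.V0) :
    S.r20 ⟨_, S.tauT_mem_V20 T hT⟩ =
      qExpand _ S.q (qExpand _ S.q (S.r0 ⟨T, hT⟩)) - S.r0 ⟨T, hT⟩ := by
  have h1 : (⟨_, S.tauT_mem_V20 T hT⟩ : S.V20) =
      ⟨_, S.Tw_be1_mem_V20 _ (S.Tw_be0_mem_V1oo T hT)⟩ -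
        ⟨_, S.Tw_al1_mem_V20 _ (S.Tw_al0_mem_V1oo T hT)⟩ := rfl
  rw [h1, map_sub, S.r20_be1 _ (S.Tw_be0_mem_V1oo T hT), S.r20_al1 _ (S.Tw_al0_mem_V1oo T hT),
    S.r1oo_be0 T hT, S.r1oo_al0 T hT]

theorem tauT_mem_V02 (T : S.F0) (hT : T ∈ S.V0) : S.tauT T ∈ S.V02 :=
  sub_mem (S.Tw_be1_mem_V02 _ (S.Tw_be0_mem_V10 T hT)) (S.Tw_al1_mem_V02 _ (S.Tw_al0_mem_V10 T hT))

theorem r02_tauT (T : S.F0) (hT : T ∈ S.V0) :
    S.r02 ⟨_, S.tauT_mem_V02 T hT⟩ =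
      S.r0 ⟨T, hT⟩ - qExpand _ S.q (qExpand _ S.q (S.r0 ⟨T, hT⟩)) := by
  have h1 : (⟨_, S.tauT_mem_V02 T hT⟩ : S.V02) =
      ⟨_, S.Tw_be1_mem_V02 _ (S.Tw_be0_mem_V10 T hT)⟩ -
        ⟨_, S.Tw_al1_mem_V02 _ (S.Tw_al0_mem_V10 T hT)⟩ := rfl
  rw [h1, map_sub, S.r02_be1 _ (S.Tw_be0_mem_V10 T hT), S.r02_al1 _ (S.Tw_al0_mem_V10 T hT),
    S.r10_be0 T hT, S.r10_al0 T hT]

end Fermat.Agent.S36.Mod.Setup

end
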