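/-
S36, modular part (sub-architect helper156).  Basic lemmas on the definitions of `InstDefs.lean`:
`ia = al1 ∘ al0`, `ib = be1 ∘ be0`, `VV = ![V20, V11, V02]`, `j0`.
-/
import Fermat.Agent.S36.Mod.Rel
import Fermat.Agent.S36.Mod.InstDefs

set_option autoImplicit false
set_option linter.unusedSectionVars false

noncomputable section

namespace Fermat.Agent.S36.Mod.Setup

open ModularCurve Fermat.Agent.S24 Fermat.Agent.S18

variable {K K' : Type*} [Field K] [Field K'] [Algebra ℚ K] [Algebra ℚ K'] [Algebra K Kbar]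
  [Algebra K' Kbar] (S : Setup K K')

@[simp] theorem ia_apply (f : S.F0) : S.ia f = S.al1 (S.al0 f) := rfl

@[simp] theorem ib_apply (f : S.F0) : S.ib f = S.be1 (S.be0 f) := rfl

@[simp] theorem VV_zero : S.VV 0 = S.V20 := rfl

@[simp] theorem VV_one : S.VV 1 = S.V11 := rfl

@[simp] theorem VV_two : S.VV 2 = S.V02 := rfl

theorem w2_ia (f : S.F0) : S.w2 (S.ia f) = S.ib f := by
  rw [ia_apply, ib_apply, w2_al1, w1_al0]

theorem w2_ib (f : S.F0) : S.w2 (S.ib f) = S.ia f := by
  rw [ia_apply, ib_apply, w2_be1, w1_be0]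

end Fermat.Agent.S36.Mod.Setup

end
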